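import Mathlib
import Fermat.Agent.Lib.RR.Basic

set_option autoImplicit false

/-!
# S18 / cluster B: the KEY LEMMA (prime-to-`ℓ` torsion injects under reduction), interface

Abstract setting: `F / K` and `Fk / k` function fields (Prelude places), `A ⊂ K` a valuation ring
with residue map `res : A → k`, `Ov ⊂ F` the Gauss valuation ring with residue map `ρ : Ov → Fk`,
and a reduction map of places `r`.  `RedSetup` packages exactly what the elementary proof uses.
-/

noncomputable section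

open AlgebraicCurve

namespace Fermat.Agent.S18Key

/-- The reduction package used by the KEY LEMMA. -/
structure RedSetup (K F k Fk : Type*) [Field K] [Field F] [Algebra K F]
    [Field k] [Field Fk] [Algebra k Fk] where
  /-- the valuation ring of the constant field -/
  A : ValuationSubring K
  /-- the (Gauss) valuation ring of the function field -/
  Ov : ValuationSubring F
  /-- residue map of the constants -/
  res : A →+* k
  /-- residue map of the function field -/
  ρ : Ov →+* Fk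
  /-- reduction of places -/
  r : Place K F → Place k Fk
  /-- `F / K` satisfies the standing hypotheses of the Riemann-Roch library -/
  hF : Fermat.Agent.RR.IsRRField K F
  /-- `Ov ∩ K = A` -/
  mem_Ov_iff : ∀ c : K, algebraMap K F c ∈ Ov ↔ c ∈ A
  /-- `ρ` restricted to constants is `res` -/
  ρ_algebraMap : ∀ (c : K) (hc : c ∈ A) (hc' : algebraMap K F c ∈ Ov),
    ρ ⟨algebraMap K F c, hc'⟩ = algebraMap k Fk (res ⟨c, hc⟩)
  /-- the kernel of `ρ` is the maximal ideal of `Ov` -/
  ρ_eq_zero_iff : ∀ f : Ov, ρ f = 0 ↔ ¬ IsUnit f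
  /-- the value group of `Ov` is the value group of `A`: every `f ≠ 0` is a constant times a unit -/
  scale : ∀ f : F, f ≠ 0 → ∃ c : K, c ≠ 0 ∧
    f * (algebraMap K F c)⁻¹ ∈ Ov ∧ (f * (algebraMap K F c)⁻¹)⁻¹ ∈ Ov
  /-- `r_* (div f) = div (ρ f)` for units `f` of `Ov` -/
  push : ∀ (f : F) (hf : f ∈ Ov), f⁻¹ ∈ Ov → f ≠ 0 → ∀ Q : Place k Fk,
    Finsupp.mapDomain r (Fermat.Agent.RR.divOf hF f) Q = Q.ord (ρ ⟨f, hf⟩)

/-- The "non-special generic points" package `(NS)`: `g` distinct places `Rb i` of `Fk`, lifts `R i`,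
parameters `t i` and a base point `P0`.  Equivalent to `g(Fk) ≥ g` (plus genericity). -/
structure NSData {K F k Fk : Type*} [Field K] [Field F] [Algebra K F]
    [Field k] [Field Fk] [Algebra k Fk] (S : RedSetup K F k Fk) (g : ℕ) where
  Rb : Fin g → Place k Fk
  Rb_inj : Function.Injective Rb
  R : Fin g → Place K F
  r_R : ∀ i, S.r (R i) = Rb i
  t : Fin g → F
  t_mem : ∀ i, t i ∈ S.Ov
  /-- `ρ (t i)` is a local parameter at `Rb i` -/
  ord_t_self : ∀ i, (Rb i).ord (S.ρ ⟨t i, t_mem i⟩) = 1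
  /-- `ρ (t i)` is a unit at `Rb j`, `j ≠ i` -/
  ord_t_other : ∀ i j, i ≠ j → (Rb j).ord (S.ρ ⟨t i, t_mem i⟩) = 0
  /-- `t i` has no pole in the residue discs of the `Rb j` -/
  t_reg : ∀ i j P, S.r P = Rb j → 0 ≤ P.ord (t i)
  /-- `t i` vanishes at `R i` -/
  t_R : ∀ i, 0 < (R i).ord (t i)
  /-- `L(Rb 0 + ... + Rb (g-1)) = k` -/
  nonspecial : ∀ f : Fk, f ≠ 0 → (∀ Q, (∀ i, Q ≠ Rb i) → 0 ≤ Q.ord f) →
    (∀ i, -1 ≤ (Rb i).ord f) → ∃ c : k, f = algebraMap k Fk c
  /-- a base point outside the discs -/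
  P0 : Place K F
  r_P0 : ∀ i, S.r P0 ≠ Rb i

/-- Statement of the KEY LEMMA. `hRI` is Riemann's inequality in degree `g`. -/
def KeyLemmaStatement {K F k Fk : Type*} [Field K] [Field F] [Algebra K F]
    [Field k] [Field Fk] [Algebra k Fk] (S : RedSetup K F k Fk) (g : ℕ) : Prop :=
  (∀ D : Divisor K F, Divisor.degree D = g → ∃ φ : F, φ ≠ 0 ∧ ∀ P : Place K F, 0 ≤ D P + P.ord φ) →
  Nonempty (NSData S g) →
  ∀ (m : ℕ), (m : K) ≠ 0 → ((m : K))⁻¹ ∈ S.A →
  ∀ D : Divisor K F, Divisor.degree D = 0 →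
    (m • D) ∈ Divisor.principal (K := K) (F := F) →
    Finsupp.mapDomain S.r D ∈ Divisor.principal (K := k) (F := Fk) →
    D ∈ Divisor.principal (K := K) (F := F)

end Fermat.Agent.S18Key
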