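import Mathlib
import Fermat.Agent.S18.KeySetup

set_option autoImplicit false

/-!
# S18 / KEY LEMMA: basic calculus of a `RedSetup`

* `RedSetup.red` : the residue map as a total function `F → Fk` (`0` outside `Ov`);
* `RedSetup.IsU` : units of `Ov`;
* fibre sums: consequences of `push` (`r_* div f = div (ρ f)`);
* values: `value_mem_A`, `value_red` (evaluation commutes with reduction).
-/

noncomputable section

open AlgebraicCurve

namespace Fermat.Agent.S18Key

variable {K F k Fk : Type*} [Field K] [Field F] [Algebra K F] [Field k] [Field Fk] [Algebra k Fk]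

/-! ### general facts on `ord` -/

theorem ord_neg' (v : Place K F) (f : F) : v.ord (-f) = v.ord f := by
  rcases eq_or_ne f 0 with rfl | hf
  · simp
  have h1 : v.ord (-1 : F) = 0 := by
    have := Fermat.Agent.S24Res.ord_algebraMap (F := F) v (-1 : K)
    simpa using this
  have : -f = (-1) * f := by ring
  rw [this, v.ord_mul (by norm_num) hf, h1, zero_add]

theorem ord_nonneg_add (v : Place K F) {f g : F} (hf : 0 ≤ v.ord f) (hg : 0 ≤ v.ord g) :
    0 ≤ v.ord (f + g) :=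
  Fermat.Agent.S24Res.ord_nonneg_of_mem v
    (add_mem (Fermat.Agent.S24Res.mem_of_ord_nonneg v hf) (Fermat.Agent.S24Res.mem_of_ord_nonneg v hg))

theorem ord_nonneg_sub (v : Place K F) {f g : F} (hf : 0 ≤ v.ord f) (hg : 0 ≤ v.ord g) :
    0 ≤ v.ord (f - g) :=
  Fermat.Agent.S24Res.ord_nonneg_of_mem v
    (sub_mem (Fermat.Agent.S24Res.mem_of_ord_nonneg v hf) (Fermat.Agent.S24Res.mem_of_ord_nonneg v hg))

theorem ord_nonneg_mul (v : Place K F) {f g : F} (hf : 0 ≤ v.ord f) (hg : 0 ≤ v.ord g) :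
    0 ≤ v.ord (f * g) :=
  Fermat.Agent.S24Res.ord_nonneg_of_mem v
    (mul_mem (Fermat.Agent.S24Res.mem_of_ord_nonneg v hf) (Fermat.Agent.S24Res.mem_of_ord_nonneg v hg))

theorem ord_const_nonneg (v : Place K F) (c : K) : 0 ≤ v.ord (algebraMap K F c) :=
  (Fermat.Agent.S24Res.ord_algebraMap v c).ge

theorem ord_one_nonneg (v : Place K F) : 0 ≤ v.ord (1 : F) := by simp

/-- general ultrametric inequality with a lower bound `n` (junk-value safe). -/
theorem ord_add_ge_of_ge (v : Place K F) {f g : F} {n : ℤ} (hn : n ≤ 0)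
    (hf : n ≤ v.ord f) (hg : n ≤ v.ord g) : n ≤ v.ord (f + g) := by
  rcases eq_or_ne f 0 with rfl | hf0
  · simpa using hg
  rcases eq_or_ne g 0 with rfl | hg0
  · simpa using hf
  rcases eq_or_ne (f + g) 0 with h0 | h0
  · rw [h0]; simpa using hn
  exact (le_min hf hg).trans (Fermat.Agent.S24Res.ord_add_ge v hf0 hg0 h0)

/-- if `ord f < 0 ≤ ord g` (or `g = 0`) then `ord (f + g) = ord f`. -/
theorem ord_add_eq_of_lt (v : Place K F) {f g : F} (hf : v.ord f < 0) (hg : 0 ≤ v.ord g) :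
    v.ord (f + g) = v.ord f := by
  have hf0 : f ≠ 0 := by rintro rfl; simp at hf
  rcases eq_or_ne g 0 with rfl | hg0
  · simp
  have hfg : f + g ≠ 0 := by
    intro h
    have : f = -g := eq_neg_of_add_eq_zero_left h
    rw [this, ord_neg'] at hf
    omega
  have h1 := Fermat.Agent.S24Res.ord_add_ge v hf0 hg0 hfg
  rw [min_eq_left (by omega)] at h1
  -- reverse inequality: f = (f+g) + (-g)
  have hng : -g ≠ 0 := neg_ne_zero.mpr hg0
  have h2 := Fermat.Agent.S24Res.ord_add_ge v hfg hng (by simpa using hf0)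
  rw [ord_neg'] at h2
  have h3 : f + g + -g = f := by ring
  rw [h3] at h2
  rcases le_or_gt (v.ord (f + g)) (v.ord g) with h | h
  · rw [min_eq_left h] at h2; omega
  · rw [min_eq_right h.le] at h2; omega

/-! ### the total residue map and units -/

variable (S : RedSetup K F k Fk)

open Classical in
/-- the residue map as a total function (zero outside `Ov`). -/
def RedSetup.red (x : F) : Fk := if h : x ∈ S.Ov then S.ρ ⟨x, h⟩ else 0

/-- units of `Ov`. -/
structure RedSetup.IsU (x : F) : Prop where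
  ne_zero : x ≠ 0
  mem : x ∈ S.Ov
  inv_mem : x⁻¹ ∈ S.Ov

variable {S}

theorem red_of_mem {x : F} (h : x ∈ S.Ov) : S.red x = S.ρ ⟨x, h⟩ := by
  unfold RedSetup.red
  rw [dif_pos h]

theorem red_zero : S.red (0 : F) = 0 := by
  rw [red_of_mem (zero_mem _)]
  exact map_zero S.ρ

theorem red_one : S.red (1 : F) = 1 := by
  rw [red_of_mem (one_mem _)]
  exact map_one S.ρ

theorem red_add {x y : F} (hx : x ∈ S.Ov) (hy : y ∈ S.Ov) : S.red (x + y) = S.red x + S.red y := by
  rw [red_of_mem hx, red_of_mem hy, red_of_mem (add_mem hx hy), ← map_add]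
  rfl

theorem red_mul {x y : F} (hx : x ∈ S.Ov) (hy : y ∈ S.Ov) : S.red (x * y) = S.red x * S.red y := by
  rw [red_of_mem hx, red_of_mem hy, red_of_mem (mul_mem hx hy), ← map_mul]
  rfl

theorem red_neg {x : F} (hx : x ∈ S.Ov) : S.red (-x) = -S.red x := by
  rw [red_of_mem hx, red_of_mem (neg_mem hx), ← map_neg]
  rfl

theorem red_sub {x y : F} (hx : x ∈ S.Ov) (hy : y ∈ S.Ov) : S.red (x - y) = S.red x - S.red y := by
  rw [sub_eq_add_neg, red_add hx (neg_mem hy), red_neg hy, sub_eq_add_neg]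

theorem red_pow {x : F} (hx : x ∈ S.Ov) (n : ℕ) : S.red (x ^ n) = S.red x ^ n := by
  rw [red_of_mem hx, red_of_mem (pow_mem hx n), ← map_pow]
  rfl

theorem isUnit_iff_inv_mem (a : S.Ov) : IsUnit a ↔ (a : F) ≠ 0 ∧ (a : F)⁻¹ ∈ S.Ov := by
  constructor
  · intro h
    obtain ⟨b, hb⟩ := isUnit_iff_exists_inv.mp h
    have h1 : (a : F) * (b : F) = 1 := by
      have := congrArg (Subtype.val) hb
      simpa using this
    have hne : (a : F) ≠ 0 := left_ne_zero_of_mul_eq_one h1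
    refine ⟨hne, ?_⟩
    have : (a : F)⁻¹ = (b : F) := inv_eq_of_mul_eq_one_right h1
    rw [this]
    exact b.2
  · rintro ⟨hne, hinv⟩
    exact ⟨⟨a, ⟨(a : F)⁻¹, hinv⟩, Subtype.ext (mul_inv_cancel₀ hne),
      Subtype.ext (inv_mul_cancel₀ hne)⟩, rfl⟩

theorem red_eq_zero_iff {x : F} (hx : x ∈ S.Ov) : S.red x = 0 ↔ x = 0 ∨ x⁻¹ ∉ S.Ov := by
  rw [red_of_mem hx, S.ρ_eq_zero_iff, isUnit_iff_inv_mem]
  simp only [not_and_or, not_not]

theorem red_ne_zero_iff {x : F} (hx : x ∈ S.Ov) : S.red x ≠ 0 ↔ S.IsU x := by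
  rw [Ne, red_eq_zero_iff hx, not_or, not_not]
  exact ⟨fun h => ⟨h.1, hx, h.2⟩, fun h => ⟨h.ne_zero, h.inv_mem⟩⟩


theorem RedSetup.IsU.red_ne_zero {x : F} (h : S.IsU x) : S.red x ≠ 0 := (red_ne_zero_iff h.mem).mpr h

theorem RedSetup.IsU.inv {x : F} (h : S.IsU x) : S.IsU x⁻¹ :=
  ⟨inv_ne_zero h.ne_zero, h.inv_mem, by rw [inv_inv]; exact h.mem⟩

theorem RedSetup.IsU.mul {x y : F} (hx : S.IsU x) (hy : S.IsU y) : S.IsU (x * y) :=
  ⟨mul_ne_zero hx.ne_zero hy.ne_zero, mul_mem hx.mem hy.mem, by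
    rw [mul_inv]; exact mul_mem hx.inv_mem hy.inv_mem⟩

theorem RedSetup.IsU.div {x y : F} (hx : S.IsU x) (hy : S.IsU y) : S.IsU (x / y) := by
  rw [div_eq_mul_inv]; exact hx.mul hy.inv

theorem RedSetup.IsU.pow {x : F} (hx : S.IsU x) (n : ℕ) : S.IsU (x ^ n) :=
  ⟨pow_ne_zero n hx.ne_zero, pow_mem hx.mem n, by rw [← inv_pow]; exact pow_mem hx.inv_mem n⟩

theorem isU_one : S.IsU (1 : F) := ⟨one_ne_zero, one_mem _, by rw [inv_one]; exact one_mem _⟩

theorem RedSetup.IsU.neg {x : F} (hx : S.IsU x) : S.IsU (-x) :=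
  ⟨neg_ne_zero.mpr hx.ne_zero, neg_mem hx.mem, by rw [inv_neg]; exact neg_mem hx.inv_mem⟩

theorem RedSetup.IsU.red_inv {x : F} (h : S.IsU x) : S.red x⁻¹ = (S.red x)⁻¹ := by
  have h1 : S.red x * S.red x⁻¹ = 1 := by
    rw [← red_mul h.mem h.inv_mem, mul_inv_cancel₀ h.ne_zero, red_one]
  exact eq_inv_of_mul_eq_one_right h1

theorem isU_of_red_ne_zero {x : F} (hx : x ∈ S.Ov) (h : S.red x ≠ 0) : S.IsU x :=
  (red_ne_zero_iff hx).mp h

/-- an element of `Ov` which is not a unit: its residue vanishes. -/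
theorem red_eq_zero_of_not_isU {x : F} (hx : x ∈ S.Ov) (h : ¬ S.IsU x) : S.red x = 0 := by
  by_contra h0
  exact h (isU_of_red_ne_zero hx h0)

/-- `x ∈ Ov` or `x⁻¹ ∈ Ov`. -/
theorem mem_or_inv_mem (x : F) : x ∈ S.Ov ∨ x⁻¹ ∈ S.Ov := S.Ov.mem_or_inv_mem x

/-- if `x ∉ Ov` then `x⁻¹` is in the maximal ideal. -/
theorem red_inv_eq_zero_of_not_mem {x : F} (hx : x ∉ S.Ov) : x⁻¹ ∈ S.Ov ∧ S.red x⁻¹ = 0 := by
  have h1 : x⁻¹ ∈ S.Ov := (mem_or_inv_mem x).resolve_left hx
  refine ⟨h1, ?_⟩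
  rw [red_eq_zero_iff h1]
  right
  rwa [inv_inv]

/-! ### constants -/

theorem const_mem_iff (c : K) : algebraMap K F c ∈ S.Ov ↔ c ∈ S.A := S.mem_Ov_iff c

theorem red_const {c : K} (hc : c ∈ S.A) :
    S.red (algebraMap K F c) = algebraMap k Fk (S.res ⟨c, hc⟩) := by
  rw [red_of_mem ((const_mem_iff c).mpr hc)]
  exact S.ρ_algebraMap c hc _

/-- a constant of `A` whose inverse is in `A` is a unit of `Ov`. -/
theorem isU_const {c : K} (hc0 : c ≠ 0) (hc : c ∈ S.A) (hci : c⁻¹ ∈ S.A) :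
    S.IsU (algebraMap K F c) :=
  ⟨by simpa using hc0, (const_mem_iff c).mpr hc, by
    rw [← map_inv₀]; exact (const_mem_iff _).mpr hci⟩

theorem inv_mem_A_of_isU_const {c : K} (h : S.IsU (algebraMap K F c)) : c⁻¹ ∈ S.A := by
  have := h.inv_mem
  rw [← map_inv₀] at this
  exact (const_mem_iff _).mp this

theorem mem_A_of_isU_const {c : K} (h : S.IsU (algebraMap K F c)) : c ∈ S.A :=
  (const_mem_iff _).mp h.mem

/-- the residue of a constant of `A` vanishes iff the constant is not a unit of `A`. -/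
theorem res_eq_zero_iff {c : K} (hc : c ∈ S.A) : S.res ⟨c, hc⟩ = 0 ↔ c = 0 ∨ c⁻¹ ∉ S.A := by
  have h1 : S.red (algebraMap K F c) = 0 ↔ S.res ⟨c, hc⟩ = 0 := by
    rw [red_const hc]
    exact (map_eq_zero_iff _ (algebraMap k Fk).injective)
  rw [← h1, red_eq_zero_iff ((const_mem_iff c).mpr hc), ← map_inv₀, const_mem_iff]
  simp

/-- the order of a nonzero residue constant is `0`. -/
theorem ord_red_const (Q : Place k Fk) {c : K} (hc : c ∈ S.A) :
    Q.ord (S.red (algebraMap K F c)) = 0 := by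
  rw [red_const hc]
  exact Fermat.Agent.S24Res.ord_algebraMap Q _

/-- scaling: every nonzero `f` is a constant times a unit. -/
theorem exists_scale {f : F} (hf : f ≠ 0) :
    ∃ c : K, c ≠ 0 ∧ S.IsU (f / algebraMap K F c) := by
  obtain ⟨c, hc, h1, h2⟩ := S.scale f hf
  refine ⟨c, hc, ⟨?_, ?_, ?_⟩⟩
  · exact div_ne_zero hf (by simpa using hc)
  · rw [div_eq_mul_inv]; exact h1
  · rw [div_eq_mul_inv]; exact h2

/-! ### fibre sums -/

open Classical in
theorem mapDomain_apply_eq_sum {α β : Type*} (r : α → β) (D : α →₀ ℤ) (Q : β) :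
    Finsupp.mapDomain r D Q = ∑ P ∈ D.support, if r P = Q then D P else 0 := by
  rw [Finsupp.mapDomain, Finsupp.sum, Finsupp.finsetSum_apply]
  refine Finset.sum_congr rfl fun P _ => ?_
  rw [Finsupp.single_apply]

/-- the coefficient of `Q` in `r_* D`, for `D ≥ 0` on the fibre, dominates every finite partial sum. -/
theorem sum_le_mapDomain {α β : Type*} (r : α → β) (D : α →₀ ℤ) (Q : β)
    (hD : ∀ P, r P = Q → 0 ≤ D P) (T : Finset α) (hT : ∀ P ∈ T, r P = Q) :
    ∑ P ∈ T, D P ≤ Finsupp.mapDomain r D Q := by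
  classical
  rw [mapDomain_apply_eq_sum]
  have h1 : ∑ P ∈ T, D P = ∑ P ∈ T ∩ D.support, D P := by
    symm
    apply Finset.sum_subset Finset.inter_subset_left
    intro P hP hP'
    rw [Finset.mem_inter, not_and] at hP'
    exact Finsupp.notMem_support_iff.mp (hP' hP)
  rw [h1]
  have h2 : ∑ P ∈ T ∩ D.support, D P = ∑ P ∈ T ∩ D.support, if r P = Q then D P else 0 := by
    refine Finset.sum_congr rfl fun P hP => ?_
    rw [if_pos (hT P (Finset.mem_inter.mp hP).1)]
  rw [h2]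
  apply Finset.sum_le_sum_of_subset_of_nonneg Finset.inter_subset_right
  intro P _ _
  split_ifs with h
  · exact hD P h
  · exact le_rfl

theorem mapDomain_nonneg {α β : Type*} (r : α → β) (D : α →₀ ℤ) (Q : β)
    (hD : ∀ P, r P = Q → 0 ≤ D P) : 0 ≤ Finsupp.mapDomain r D Q := by
  classical
  have := sum_le_mapDomain r D Q hD ∅ (by simp)
  simpa using this

theorem le_mapDomain {α β : Type*} (r : α → β) (D : α →₀ ℤ) (Q : β)
    (hD : ∀ P, r P = Q → 0 ≤ D P) (P1 : α) (h1 : r P1 = Q) : D P1 ≤ Finsupp.mapDomain r D Q := by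
  classical
  have := sum_le_mapDomain r D Q hD {P1} (by simpa using h1)
  simpa using this

theorem add_le_mapDomain {α β : Type*} (r : α → β) (D : α →₀ ℤ) (Q : β)
    (hD : ∀ P, r P = Q → 0 ≤ D P) (P1 P2 : α) (hne : P1 ≠ P2) (h1 : r P1 = Q) (h2 : r P2 = Q) :
    D P1 + D P2 ≤ Finsupp.mapDomain r D Q := by
  classical
  have := sum_le_mapDomain r D Q hD {P1, P2} (by
    intro P hP
    rcases Finset.mem_insert.mp hP with rfl | hP
    · exact h1
    · rw [Finset.mem_singleton.mp hP]; exact h2)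
  rwa [Finset.sum_pair hne] at this

/-- `r_* (div f) = div (red f)` for units, in terms of `ord`. -/
theorem push_eq {f : F} (hf : S.IsU f) (Q : Place k Fk) :
    Finsupp.mapDomain S.r (Fermat.Agent.RR.divOf S.hF f) Q = Q.ord (S.red f) := by
  rw [red_of_mem hf.mem]
  exact S.push f hf.mem hf.inv_mem hf.ne_zero Q

theorem push_nonneg {f : F} (hf : S.IsU f) (Q : Place k Fk)
    (h : ∀ P, S.r P = Q → 0 ≤ P.ord f) : 0 ≤ Q.ord (S.red f) := by
  rw [← push_eq hf]
  exact mapDomain_nonneg _ _ _ fun P hP => by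
    rw [Fermat.Agent.RR.divOf_apply]; exact h P hP

theorem push_ge {f : F} (hf : S.IsU f) (Q : Place k Fk)
    (h : ∀ P, S.r P = Q → 0 ≤ P.ord f) (P1 : Place K F) (h1 : S.r P1 = Q) :
    P1.ord f ≤ Q.ord (S.red f) := by
  rw [← push_eq hf]
  have := le_mapDomain S.r (Fermat.Agent.RR.divOf S.hF f) Q (fun P hP => by
    rw [Fermat.Agent.RR.divOf_apply]; exact h P hP) P1 h1
  rwa [Fermat.Agent.RR.divOf_apply] at this

theorem push_ge_two {f : F} (hf : S.IsU f) (Q : Place k Fk)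
    (h : ∀ P, S.r P = Q → 0 ≤ P.ord f) (P1 P2 : Place K F) (hne : P1 ≠ P2)
    (h1 : S.r P1 = Q) (h2 : S.r P2 = Q) :
    P1.ord f + P2.ord f ≤ Q.ord (S.red f) := by
  rw [← push_eq hf]
  have := add_le_mapDomain S.r (Fermat.Agent.RR.divOf S.hF f) Q (fun P hP => by
    rw [Fermat.Agent.RR.divOf_apply]; exact h P hP) P1 P2 hne h1 h2
  rwa [Fermat.Agent.RR.divOf_apply, Fermat.Agent.RR.divOf_apply] at this

/-- no poles in the fibre and residue of order `0`: no zeros in the fibre. -/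
theorem push_eq_zero {f : F} (hf : S.IsU f) (Q : Place k Fk)
    (h : ∀ P, S.r P = Q → 0 ≤ P.ord f) (h0 : Q.ord (S.red f) = 0) (P1 : Place K F)
    (h1 : S.r P1 = Q) : P1.ord f = 0 := by
  have := push_ge hf Q h P1 h1
  have := h P1 h1
  omega

/-- no poles in the fibre and residue of order `1`: at most one zero in the fibre. -/
theorem push_eq_one_unique {f : F} (hf : S.IsU f) (Q : Place k Fk)
    (h : ∀ P, S.r P = Q → 0 ≤ P.ord f) (h0 : Q.ord (S.red f) = 1) (P1 P2 : Place K F)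
    (h1 : S.r P1 = Q) (h2 : S.r P2 = Q) (hz1 : 0 < P1.ord f) (hz2 : 0 < P2.ord f) : P1 = P2 := by
  by_contra hne
  have := push_ge_two hf Q h P1 P2 hne h1 h2
  omega

theorem push_eq_one_ord {f : F} (hf : S.IsU f) (Q : Place k Fk)
    (h : ∀ P, S.r P = Q → 0 ≤ P.ord f) (h0 : Q.ord (S.red f) = 1) (P1 : Place K F)
    (h1 : S.r P1 = Q) (hz1 : 0 < P1.ord f) : P1.ord f = 1 := by
  have := push_ge hf Q h P1 h1
  omega

/-! ### values -/

/-- CLAIM 0, first half: the value at `P` of a function of `Ov` without poles in the residue disc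
of `P` lies in `A`. -/
theorem value_mem_A {f : F} (hf : f ∈ S.Ov) (P : Place K F)
    (hreg : ∀ P', S.r P' = S.r P → 0 ≤ P'.ord f) (c : K)
    (hc : f = algebraMap K F c ∨ 0 < P.ord (f - algebraMap K F c)) : c ∈ S.A := by
  by_contra hcA
  have hcO : algebraMap K F c ∉ S.Ov := fun h => hcA ((const_mem_iff c).mp h)
  rcases hc with hc | hc
  · exact hcO (hc ▸ hf)
  have hc0 : c ≠ 0 := by
    rintro rfl
    exact hcA (zero_mem _)
  have hcF : algebraMap K F c ≠ 0 := by simpa using hc0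
  obtain ⟨hci, hci0⟩ := red_inv_eq_zero_of_not_mem hcO
  -- g = c⁻¹ f - 1 = c⁻¹ (f - c)
  set g : F := (algebraMap K F c)⁻¹ * f - 1 with hg
  have hgmem : g ∈ S.Ov := sub_mem (mul_mem hci hf) (one_mem _)
  have hgred : S.red g = -1 := by
    rw [hg, red_sub (mul_mem hci hf) (one_mem _), red_mul hci hf, hci0, zero_mul, red_one, zero_sub]
  have hgU : S.IsU g := isU_of_red_ne_zero hgmem (by rw [hgred]; simp)
  have hgeq : g = (algebraMap K F c)⁻¹ * (f - algebraMap K F c) := by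
    rw [hg, mul_sub, inv_mul_cancel₀ hcF]
  have hfc : f - algebraMap K F c ≠ 0 := by
    intro h0
    rw [h0] at hc
    simp at hc
  have hordc : ∀ P' : Place K F, P'.ord ((algebraMap K F c)⁻¹) = 0 := fun P' => by
    rw [← map_inv₀]; exact Fermat.Agent.S24Res.ord_algebraMap P' _
  have hordg : ∀ P' : Place K F, P'.ord g = P'.ord (f - algebraMap K F c) := fun P' => by
    rw [hgeq, P'.ord_mul (inv_ne_zero hcF) hfc, hordc, zero_add]
  have h1 : 0 < (S.r P).ord (S.red g) := by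
    have := push_ge hgU (S.r P) (fun P' hP' => by
      rw [hordg]
      exact ord_nonneg_sub P' (hreg P' hP') (ord_const_nonneg P' c)) P rfl
    rw [hordg] at this
    omega
  rw [hgred, ord_neg'] at h1
  simp at h1

/-- CLAIM 0, second half: evaluation commutes with reduction. -/
theorem value_red {f : F} (hf : f ∈ S.Ov) (P : Place K F)
    (hreg : ∀ P', S.r P' = S.r P → 0 ≤ P'.ord f) (c : K) (hcA : c ∈ S.A)
    (hc : f = algebraMap K F c ∨ 0 < P.ord (f - algebraMap K F c)) :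
    S.red f = S.red (algebraMap K F c) ∨ 0 < (S.r P).ord (S.red f - S.red (algebraMap K F c)) := by
  have hcO : algebraMap K F c ∈ S.Ov := (const_mem_iff c).mpr hcA
  rcases hc with hc | hc
  · left; rw [← hc]
  by_cases hU : S.IsU (f - algebraMap K F c)
  · right
    rw [← red_sub hf hcO]
    have := push_ge hU (S.r P) (fun P' hP' =>
      ord_nonneg_sub P' (hreg P' hP') (ord_const_nonneg P' c)) P rfl
    omega
  · left
    have := red_eq_zero_of_not_isU (sub_mem hf hcO) hU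
    rw [red_sub hf hcO, sub_eq_zero] at this
    exact this

end Fermat.Agent.S18Key
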