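import Mathlib
import Fermat.Agent.S18.KeyLocal

set_option autoImplicit false

/-!
# S18 / KEY LEMMA: the main argument

`kl_main`: if `u₀` has divisor `m * ∑ (P i - R i)` with `P i` in the residue disc of `Rb i` and
`m` a unit of `A`, then `P i = R i` for all `i`.
-/

noncomputable section

open AlgebraicCurve

namespace Fermat.Agent.S18Key

variable {K F k Fk : Type*} [Field K] [Field F] [Algebra K F] [Field k] [Field Fk] [Algebra k Fk]
variable {S : RedSetup K F k Fk} {g : ℕ}

/-- the order of `red c * f` for a unit constant `c` of `A`. -/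
theorem kl_ord_red_unit_mul (Q : Place k Fk) {c : K} (hc0 : c ≠ 0) (hc : c ∈ S.A)
    (hci : c⁻¹ ∈ S.A) (f : Fk) : Q.ord (S.red (algebraMap K F c) * f) = Q.ord f := by
  rcases kl_ord_red_const_mul (S := S) Q hc f with h | h
  · have hf : f = 0 := by
      rcases mul_eq_zero.mp h with h' | h'
      · exact absurd h' (kl_red_const_ne_zero hc0 hc hci)
      · exact h'
    rw [hf, mul_zero]
  · exact h

/-- final contradiction: a unit `W`, regular off the discs `I`, with residue having at most simple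
poles at the `Rb j`, `j ∈ I`, cannot vanish at `P0`. -/
theorem kl_final (N : NSData S g) (I : Finset (Fin g)) {W : F} (hW : S.IsU W)
    (hreg : ∀ v, (∀ j ∈ I, S.r v ≠ N.Rb j) → 0 ≤ v.ord W)
    (hpole : ∀ j ∈ I, -1 ≤ (N.Rb j).ord (S.red W))
    (hz : 0 < N.P0.ord W) : False := by
  have h1 : ∀ Q, (∀ j ∈ I, Q ≠ N.Rb j) → 0 ≤ Q.ord (S.red W) := fun Q hQ =>
    push_nonneg hW Q fun P hP => hreg P fun j hj => by rw [hP]; exact hQ j hj
  obtain ⟨c, hc⟩ := N.nonspecial (S.red W) hW.red_ne_zero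
    (fun Q hQ => h1 Q fun j _ => hQ j)
    (fun i => by
      by_cases hi : i ∈ I
      · exact hpole i hi
      · have := h1 (N.Rb i) fun j hj hij => hi (by rw [N.Rb_inj hij]; exact hj)
        omega)
  have h2 : (S.r N.P0).ord (S.red W) = 0 := by
    rw [hc]; exact Fermat.Agent.S24Res.ord_algebraMap _ c
  have h3 := push_ge hW (S.r N.P0)
    (fun P hP => hreg P fun j _ => by rw [hP]; exact N.r_P0 j) N.P0 rfl
  omega

/-- normalisation of the value at `P0`. -/
theorem kl_normalise (P0 : Place K F) {u₀ : F} (hu₀ : u₀ ≠ 0)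
    (h0 : ∀ P, S.r P = S.r P0 → P.ord u₀ = 0) :
    ∃ c : K, c ≠ 0 ∧ S.IsU (u₀ / algebraMap K F c) ∧
      (u₀ / algebraMap K F c = 1 ∨ 0 < P0.ord (u₀ / algebraMap K F c - 1)) := by
  obtain ⟨c₁, hc₁, hU⟩ := exists_scale (S := S) hu₀
  have hord : ∀ P : Place K F, P.ord (u₀ / algebraMap K F c₁) = P.ord u₀ := fun P =>
    kl_ord_div_const P hc₁ u₀
  have h0' : ∀ P, S.r P = S.r P0 → P.ord (u₀ / algebraMap K F c₁) = 0 := fun P hP => by
    rw [hord, h0 P hP]
  have hreg : ∀ P, S.r P = S.r P0 → 0 ≤ P.ord (u₀ / algebraMap K F c₁) := fun P hP =>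
    (h0' P hP).ge
  obtain ⟨c₀, hc₀⟩ := Fermat.Agent.RR.exists_const_sub S.hF P0 (hreg P0 rfl)
  have hc₀A : c₀ ∈ S.A := value_mem_A hU.mem P0 hreg c₀ hc₀
  have hc₀0 : c₀ ≠ 0 := by
    rintro rfl
    rw [map_zero, sub_zero] at hc₀
    rcases hc₀ with h | h
    · exact hU.ne_zero h
    · rw [h0' P0 rfl] at h; exact lt_irrefl _ h
  have hvr := value_red hU.mem P0 hreg c₀ hc₀A hc₀
  have hpz : (S.r P0).ord (S.red (u₀ / algebraMap K F c₁)) = 0 := kl_push_zero hU (S.r P0) h0'
  have hc₀i : c₀⁻¹ ∈ S.A := by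
    by_contra hci
    rw [kl_red_const_eq_zero hc₀A hci, sub_zero] at hvr
    rcases hvr with h | h
    · exact hU.red_ne_zero h
    · rw [hpz] at h; exact lt_irrefl _ h
  have hcU : S.IsU (algebraMap K F c₀) := isU_const hc₀0 hc₀A hc₀i
  have e : u₀ / algebraMap K F (c₁ * c₀) = u₀ / algebraMap K F c₁ / algebraMap K F c₀ := by
    rw [map_mul, div_div]
  refine ⟨c₁ * c₀, mul_ne_zero hc₁ hc₀0, ?_, ?_⟩
  · rw [e]; exact hU.div hcU
  · rw [e]
    rcases hc₀ with h | h
    · left; rw [h]; exact div_self hcU.ne_zero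
    · right
      have e2 : u₀ / algebraMap K F c₁ / algebraMap K F c₀ - 1 =
          (u₀ / algebraMap K F c₁ - algebraMap K F c₀) / algebraMap K F c₀ := by
        rw [sub_div, div_self hcU.ne_zero]
      rw [e2, kl_ord_div_const P0 hc₀0]; exact h

/-- the core contradiction. -/
theorem kl_core (N : NSData S g) (I : Finset (Fin g)) (istar : Fin g) (_hstar : istar ∈ I)
    {u : F} (hu : S.IsU u) (hu1 : u ≠ 1) (huP0 : 0 < N.P0.ord (u - 1))
    (hu_off : ∀ v, (∀ j ∈ I, S.r v ≠ N.Rb j) → v.ord u = 0)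
    {a : K} (ha0 : a ≠ 0) (haA : a ∈ S.A) (hai : a⁻¹ ∉ S.A)
    {Y : F} (hY : Y ∈ S.Ov) (hY2 : ∀ j ∈ I, -1 ≤ (N.Rb j).ord (S.red Y))
    (hY3 : (N.Rb istar).ord (S.red Y) = -1)
    (huV : ∀ j ∈ I, ∀ v, S.r v = N.Rb j → v.ord (u * (1 + algebraMap K F a * Y)) = 0) :
    False := by
  have haF0 : algebraMap K F a ≠ 0 := by simpa using ha0
  have haO : algebraMap K F a ∈ S.Ov := (const_mem_iff a).mpr haA
  have hreda : S.red (algebraMap K F a) = 0 := kl_red_const_eq_zero haA hai
  have hVmem : 1 + algebraMap K F a * Y ∈ S.Ov := add_mem (one_mem _) (mul_mem haO hY)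
  have hredV : S.red (1 + algebraMap K F a * Y) = 1 := by
    rw [red_add (one_mem _) (mul_mem haO hY), red_one, red_mul haO hY, hreda, zero_mul, add_zero]
  have hVU : S.IsU (1 + algebraMap K F a * Y) :=
    isU_of_red_ne_zero hVmem (by rw [hredV]; exact one_ne_zero)
  have hredY0 : S.red Y ≠ 0 := kl_ne_zero_of_ord_ne_zero (N.Rb istar) (by rw [hY3]; norm_num)
  have hx0 : u - 1 ≠ 0 := sub_ne_zero.mpr hu1
  have hXmem : u * (1 + algebraMap K F a * Y) - 1 ∈ S.Ov :=
    sub_mem (mul_mem hu.mem hVmem) (one_mem _)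
  have hT : u * (1 + algebraMap K F a * Y) - 1 - algebraMap K F a * Y =
      (u - 1) * (1 + algebraMap K F a * Y) := by ring
  have hXreg : ∀ j ∈ I, ∀ v, S.r v = N.Rb j →
      0 ≤ v.ord (u * (1 + algebraMap K F a * Y) - 1) := fun j hj v hv =>
    ord_nonneg_sub v (huV j hj v hv).ge (ord_one_nonneg v)
  -- the key claim
  have key : ∃ τ : K, τ ≠ 0 ∧
      ((u - 1) * (1 + algebraMap K F a * Y)) / algebraMap K F τ ∈ S.Ov ∧
      S.red (((u - 1) * (1 + algebraMap K F a * Y)) / algebraMap K F τ) ≠ 0 ∧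
      ∀ j ∈ I, -1 ≤ (N.Rb j).ord
        (S.red (((u - 1) * (1 + algebraMap K F a * Y)) / algebraMap K F τ)) := by
    by_cases hZ : (u * (1 + algebraMap K F a * Y) - 1) / algebraMap K F a ∈ S.Ov ∧
        S.red ((u * (1 + algebraMap K F a * Y) - 1) / algebraMap K F a) = 0
    · have e : ((u - 1) * (1 + algebraMap K F a * Y)) / algebraMap K F a =
          (u * (1 + algebraMap K F a * Y) - 1) / algebraMap K F a - Y := by
        rw [← hT, sub_div, mul_div_cancel_left₀ _ haF0]
      have hr : S.red (((u - 1) * (1 + algebraMap K F a * Y)) / algebraMap K F a) =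
          -S.red Y := by
        rw [e, red_sub hZ.1 hY, hZ.2, zero_sub]
      refine ⟨a, ha0, ?_, ?_, ?_⟩
      · rw [e]; exact sub_mem hZ.1 hY
      · rw [hr]; exact neg_ne_zero.mpr hredY0
      · intro j hj
        rw [hr, ord_neg']
        exact hY2 j hj
    · have hX0 : u * (1 + algebraMap K F a * Y) - 1 ≠ 0 := by
        intro h0
        apply hZ
        rw [h0, zero_div]
        exact ⟨zero_mem _, red_zero⟩
      obtain ⟨b, hb0, hw⟩ := exists_scale (S := S) hX0
      have hbF0 : algebraMap K F b ≠ 0 := by simpa using hb0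
      have hcA : a / b ∈ S.A := by
        by_contra hc
        have hci : (a / b)⁻¹ ∈ S.A := (S.A.mem_or_inv_mem (a / b)).resolve_left hc
        have hcii : ((a / b)⁻¹)⁻¹ ∉ S.A := by rwa [inv_inv]
        have hr0 : S.red (algebraMap K F (a / b)⁻¹) = 0 := kl_red_const_eq_zero hci hcii
        have hcO : algebraMap K F (a / b)⁻¹ ∈ S.Ov := (const_mem_iff _).mpr hci
        have e : (u * (1 + algebraMap K F a * Y) - 1) / algebraMap K F a =
            (u * (1 + algebraMap K F a * Y) - 1) / algebraMap K F b *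
              algebraMap K F (a / b)⁻¹ := by
          rw [map_inv₀, map_div₀]
          field_simp
        apply hZ
        rw [e]
        exact ⟨mul_mem hw.mem hcO, by rw [red_mul hw.mem hcO, hr0, mul_zero]⟩
      have hcO : algebraMap K F (a / b) ∈ S.Ov := (const_mem_iff _).mpr hcA
      have e : ((u - 1) * (1 + algebraMap K F a * Y)) / algebraMap K F b =
          (u * (1 + algebraMap K F a * Y) - 1) / algebraMap K F b -
            algebraMap K F (a / b) * Y := by
        rw [← hT, sub_div, map_div₀]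
        field_simp
      have hr : S.red (((u - 1) * (1 + algebraMap K F a * Y)) / algebraMap K F b) =
          S.red ((u * (1 + algebraMap K F a * Y) - 1) / algebraMap K F b) -
            S.red (algebraMap K F (a / b)) * S.red Y := by
        rw [e, red_sub hw.mem (mul_mem hcO hY), red_mul hcO hY]
      have hwreg : ∀ j ∈ I, 0 ≤ (N.Rb j).ord
          (S.red ((u * (1 + algebraMap K F a * Y) - 1) / algebraMap K F b)) := fun j hj =>
        push_nonneg hw (N.Rb j) fun P hP => by
          rw [kl_ord_div_const P hb0]; exact hXreg j hj P hP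
      refine ⟨b, hb0, ?_, ?_, ?_⟩
      · rw [e]; exact sub_mem hw.mem (mul_mem hcO hY)
      · rw [hr]
        intro h0
        rw [sub_eq_zero] at h0
        rcases kl_ord_red_const_mul (S := S) (N.Rb istar) hcA (S.red Y) with h | h
        · rw [h] at h0
          exact hw.red_ne_zero h0
        · have := hwreg istar _hstar
          rw [h0, h, hY3] at this
          omega
      · intro j hj
        rw [hr]
        refine kl_ord_sub_ge_of_ge (N.Rb j) (by norm_num) ?_ ?_
        · have := hwreg j hj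
          omega
        · exact kl_ord_red_const_mul_ge (N.Rb j) hcA _ (by norm_num) (hY2 j hj)
  obtain ⟨τ, hτ0, hmem, hred0, hord⟩ := key
  have hτF0 : algebraMap K F τ ≠ 0 := by simpa using hτ0
  have hWe : (u - 1) / algebraMap K F τ =
      ((u - 1) * (1 + algebraMap K F a * Y)) / algebraMap K F τ *
        (1 + algebraMap K F a * Y)⁻¹ := by
    have := hVU.ne_zero
    field_simp
  have hTU : S.IsU (((u - 1) * (1 + algebraMap K F a * Y)) / algebraMap K F τ) :=
    isU_of_red_ne_zero hmem hred0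
  have hWU : S.IsU ((u - 1) / algebraMap K F τ) := by rw [hWe]; exact hTU.mul hVU.inv
  have hredW : S.red ((u - 1) / algebraMap K F τ) =
      S.red (((u - 1) * (1 + algebraMap K F a * Y)) / algebraMap K F τ) := by
    rw [hWe, red_mul hmem hVU.inv_mem, hVU.red_inv, hredV, inv_one, mul_one]
  have hordW : ∀ v : Place K F, v.ord ((u - 1) / algebraMap K F τ) = v.ord (u - 1) := fun v =>
    kl_ord_div_const v hτ0 _
  refine kl_final N I hWU ?_ ?_ ?_
  · intro v hv
    rw [hordW]
    exact ord_nonneg_sub v (hu_off v hv).ge (ord_one_nonneg v)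
  · intro j hj
    rw [hredW]
    exact hord j hj
  · rw [hordW]
    exact huP0

end Fermat.Agent.S18Key
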