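import Mathlib
import Fermat.Agent.S18.KeyLemma

set_option autoImplicit false

/-!
# S18 / KEY LEMMA: the main theorem `kl_main`

If `u₀` has divisor `m * ∑ (P i - R i)` with `P i` in the residue disc of `Rb i` and `m` a unit
of `A`, then `P i = R i` for all `i`.
-/

noncomputable section

open AlgebraicCurve

namespace Fermat.Agent.S18Key

variable {K F k Fk : Type*} [Field K] [Field F] [Algebra K F] [Field k] [Field Fk] [Algebra k Fk]
variable {S : RedSetup K F k Fk} {g : ℕ}

theorem kl_main (N : NSData S g) (m : ℕ) (hm0 : (m : K) ≠ 0) (hmA : ((m : K))⁻¹ ∈ S.A)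
    (P : Fin g → Place K F) (hP : ∀ i, S.r (P i) = N.Rb i)
    (u₀ : F) (hu₀ : u₀ ≠ 0)
    (hdiv : ∀ v : Place K F, v.ord u₀ =
      m * ∑ i, (Finsupp.single (P i) (1 : ℤ) v - Finsupp.single (N.R i) (1 : ℤ) v)) :
    ∀ i, P i = N.R i := by
  classical
  by_contra hcon
  obtain ⟨i₀, hi₀⟩ := not_forall.mp hcon
  set I : Finset (Fin g) := Finset.univ.filter fun i => P i ≠ N.R i with hI
  have hmemI : ∀ i, i ∈ I ↔ P i ≠ N.R i := fun i => by simp [hI]
  have hIne : I.Nonempty := ⟨i₀, (hmemI i₀).mpr hi₀⟩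
  -- the divisor of u₀
  have hterm : ∀ (v : Place K F) (i : Fin g), (i ∉ I ∨ S.r v ≠ N.Rb i) →
      Finsupp.single (P i) (1 : ℤ) v - Finsupp.single (N.R i) (1 : ℤ) v = 0 := by
    intro v i h
    rcases h with h | h
    · have : P i = N.R i := by
        by_contra h'
        exact h ((hmemI i).mpr h')
      rw [this, sub_self]
    · have h1 : v ≠ P i := fun e => h (by rw [e]; exact hP i)
      have h2 : v ≠ N.R i := fun e => h (by rw [e]; exact N.r_R i)
      rw [Finsupp.single_eq_of_ne h1, Finsupp.single_eq_of_ne h2, sub_self]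
  have hH1 : ∀ v, (∀ j ∈ I, S.r v ≠ N.Rb j) → v.ord u₀ = 0 := by
    intro v hv
    rw [hdiv, Finset.sum_eq_zero, mul_zero]
    intro i _
    apply hterm
    by_cases hi : i ∈ I
    · exact Or.inr (hv i hi)
    · exact Or.inl hi
  have hH2 : ∀ j ∈ I, ∀ v, S.r v = N.Rb j → v.ord u₀ =
      m * (Finsupp.single (P j) (1 : ℤ) v - Finsupp.single (N.R j) (1 : ℤ) v) := by
    intro j _ v hv
    rw [hdiv, Finset.sum_eq_single j]
    · intro i _ hij
      apply hterm
      right
      rw [hv]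
      exact fun e => hij (N.Rb_inj e).symm
    · intro h
      exact absurd (Finset.mem_univ j) h
  -- normalise
  obtain ⟨c, hc0, hU, hval⟩ := kl_normalise (S := S) N.P0 hu₀
    (fun P hP => hH1 P fun j _ => by rw [hP]; exact N.r_P0 j)
  have hordu : ∀ v : Place K F, v.ord (u₀ / algebraMap K F c) = v.ord u₀ := fun v =>
    kl_ord_div_const v hc0 u₀
  have hmZ : (m : ℤ) ≠ 0 := by
    intro h
    apply hm0
    have : m = 0 := by exact_mod_cast h
    rw [this]
    simp
  have hu1 : u₀ / algebraMap K F c ≠ 1 := by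
    intro h1
    have := hH2 i₀ ((hmemI i₀).mpr hi₀) (P i₀) (hP i₀)
    rw [← hordu, h1, Place.ord_one, Finsupp.single_eq_same, Finsupp.single_eq_of_ne hi₀,
      sub_zero, mul_one] at this
    exact hmZ this.symm
  have huP0 : 0 < N.P0.ord (u₀ / algebraMap K F c - 1) := hval.resolve_left hu1
  -- local data
  have hloc : ∀ i, ∃ a : K, i ∈ I → KLLocal S N i (P i) a := by
    intro i
    by_cases hi : i ∈ I
    · obtain ⟨a, ha⟩ := kl_exists_local N i (P i) (hP i) ((hmemI i).mp hi)
      exact ⟨a, fun _ => ha⟩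
    · exact ⟨0, fun h => absurd h hi⟩
  choose aI hL using hloc
  -- choose `istar` with maximal valuation
  obtain ⟨istar, hstar, hmax⟩ := Finset.exists_max_image I (fun i => S.A.valuation (aI i)) hIne
  have hLs := hL istar hstar
  have ha0 : aI istar ≠ 0 := hLs.a_ne
  have haA : aI istar ∈ S.A := hLs.a_mem
  have hai : (aI istar)⁻¹ ∉ S.A := hLs.a_inv
  have haF0 : algebraMap K F (aI istar) ≠ 0 := by simpa using ha0
  have haO : algebraMap K F (aI istar) ∈ S.Ov := (const_mem_iff _).mpr haA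
  have hreda : S.red (algebraMap K F (aI istar)) = 0 := kl_red_const_eq_zero haA hai
  have hcA : ∀ i ∈ I, aI i / aI istar ∈ S.A := by
    intro i hi
    rw [← ValuationSubring.valuation_le_one_iff, map_div₀]
    have hpos : 0 < S.A.valuation (aI istar) :=
      zero_lt_iff.mpr ((Valuation.ne_zero_iff _).mpr ha0)
    exact (div_le_one₀ hpos).mpr (hmax i hi)
  have hcO : ∀ i ∈ I, algebraMap K F (aI i / aI istar) ∈ S.Ov := fun i hi =>
    (const_mem_iff _).mpr (hcA i hi)
  -- the functions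
  have hs0 : ∀ i ∈ I, N.t i - algebraMap K F (aI i) ≠ 0 := fun i hi => (hL i hi).s_isU.ne_zero
  have hσmem : ∀ i ∈ I,
      algebraMap K F (aI i / aI istar) * (N.t i - algebraMap K F (aI i))⁻¹ ∈ S.Ov :=
    fun i hi => mul_mem (hcO i hi) (hL i hi).s_isU.inv_mem
  have hq : ∀ i ∈ I, N.t i * (N.t i - algebraMap K F (aI i))⁻¹ =
      1 + algebraMap K F (aI istar) *
        (algebraMap K F (aI i / aI istar) * (N.t i - algebraMap K F (aI i))⁻¹) := by
    intro i hi
    have := hs0 i hi
    rw [map_div₀]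
    field_simp
    ring
  have hq0 : ∀ i ∈ I, N.t i * (N.t i - algebraMap K F (aI i))⁻¹ ≠ 0 := fun i hi =>
    mul_ne_zero (hL i hi).t_isU.ne_zero (inv_ne_zero (hs0 i hi))
  have hexp : KLExp S (algebraMap K F (aI istar))
      ((∏ i ∈ I, N.t i * (N.t i - algebraMap K F (aI i))⁻¹) ^ m)
      ((m : F) * ∑ i ∈ I,
        algebraMap K F (aI i / aI istar) * (N.t i - algebraMap K F (aI i))⁻¹) := by
    apply KLExp.pow haO (sum_mem hσmem)
    apply KLExp.prod I _ _ haO hσmem
    intro i hi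
    rw [hq i hi]
    exact KLExp.base _ _
  obtain ⟨y, hy, hVy⟩ := hexp
  have hmF : (m : F) = algebraMap K F (m : K) := (map_natCast (algebraMap K F) m).symm
  have hmAm : (m : K) ∈ S.A := natCast_mem _ m
  have hmO : (m : F) ∈ S.Ov := natCast_mem _ m
  have hSmem : ∑ i ∈ I,
      algebraMap K F (aI i / aI istar) * (N.t i - algebraMap K F (aI i))⁻¹ ∈ S.Ov :=
    sum_mem hσmem
  have hYmem : (m : F) * ∑ i ∈ I,
      algebraMap K F (aI i / aI istar) * (N.t i - algebraMap K F (aI i))⁻¹ +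
        algebraMap K F (aI istar) * y ∈ S.Ov :=
    add_mem (mul_mem hmO hSmem) (mul_mem haO hy)
  have hVY : (∏ i ∈ I, N.t i * (N.t i - algebraMap K F (aI i))⁻¹) ^ m =
      1 + algebraMap K F (aI istar) * ((m : F) * ∑ i ∈ I,
        algebraMap K F (aI i / aI istar) * (N.t i - algebraMap K F (aI i))⁻¹ +
          algebraMap K F (aI istar) * y) := by
    rw [hVy]; ring
  -- residues of the σ i
  have hredσ : ∀ i ∈ I,
      S.red (algebraMap K F (aI i / aI istar) * (N.t i - algebraMap K F (aI i))⁻¹) =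
        S.red (algebraMap K F (aI i / aI istar)) * (S.red (N.t i))⁻¹ := by
    intro i hi
    rw [red_mul (hcO i hi) (hL i hi).s_isU.inv_mem, (hL i hi).s_isU.red_inv, (hL i hi).red_s]
  have hredY : S.red ((m : F) * ∑ i ∈ I,
      algebraMap K F (aI i / aI istar) * (N.t i - algebraMap K F (aI i))⁻¹ +
        algebraMap K F (aI istar) * y) =
      S.red (algebraMap K F (m : K)) * ∑ i ∈ I,
        S.red (algebraMap K F (aI i / aI istar)) * (S.red (N.t i))⁻¹ := by
    rw [red_add (mul_mem hmO hSmem) (mul_mem haO hy), red_mul hmO hSmem, red_mul haO hy, hreda,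
      zero_mul, add_zero, kl_red_sum I _ hσmem, hmF]
    congr 1
    exact Finset.sum_congr rfl hredσ
  have hordσ : ∀ i ∈ I, ∀ j, -1 ≤ (N.Rb j).ord
      (S.red (algebraMap K F (aI i / aI istar)) * (S.red (N.t i))⁻¹) := by
    intro i hi j
    refine kl_ord_red_const_mul_ge (N.Rb j) (hcA i hi) _ (by norm_num) ?_
    rw [(N.Rb j).ord_inv]
    by_cases hij : i = j
    · subst hij
      rw [kl_ord_red_t_self]
    · rw [kl_ord_red_t_other N i j hij]
      norm_num
  have hordσ' : ∀ i ∈ I, ∀ j, i ≠ j → 0 ≤ (N.Rb j).ord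
      (S.red (algebraMap K F (aI i / aI istar)) * (S.red (N.t i))⁻¹) := by
    intro i hi j hij
    refine kl_ord_red_const_mul_ge (N.Rb j) (hcA i hi) _ le_rfl ?_
    rw [(N.Rb j).ord_inv, kl_ord_red_t_other N i j hij]
    norm_num
  have hordσs : (N.Rb istar).ord
      (S.red (algebraMap K F (aI istar / aI istar)) * (S.red (N.t istar))⁻¹) = -1 := by
    rw [div_self ha0, map_one, red_one, one_mul, (N.Rb istar).ord_inv, kl_ord_red_t_self]
  have hY2 : ∀ j ∈ I, -1 ≤ (N.Rb j).ord (S.red ((m : F) * ∑ i ∈ I,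
      algebraMap K F (aI i / aI istar) * (N.t i - algebraMap K F (aI i))⁻¹ +
        algebraMap K F (aI istar) * y)) := by
    intro j _
    rw [hredY]
    refine kl_ord_red_const_mul_ge (N.Rb j) hmAm _ (by norm_num) ?_
    exact kl_ord_sum_ge (N.Rb j) I _ (by norm_num) fun i hi => hordσ i hi j
  have hY3 : (N.Rb istar).ord (S.red ((m : F) * ∑ i ∈ I,
      algebraMap K F (aI i / aI istar) * (N.t i - algebraMap K F (aI i))⁻¹ +
        algebraMap K F (aI istar) * y)) = -1 := by
    rw [hredY, kl_ord_red_unit_mul (N.Rb istar) hm0 hmAm hmA, ← Finset.add_sum_erase I _ hstar]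
    rw [ord_add_eq_of_lt (N.Rb istar) (by rw [hordσs]; norm_num)]
    · exact hordσs
    · refine kl_ord_sum_ge (N.Rb istar) _ _ le_rfl fun i hi => ?_
      exact hordσ' i (Finset.mem_of_mem_erase hi) istar (Finset.ne_of_mem_erase hi)
  -- orders of `u * V` on the discs
  have huV : ∀ j ∈ I, ∀ v, S.r v = N.Rb j →
      v.ord (u₀ / algebraMap K F c * (1 + algebraMap K F (aI istar) * ((m : F) * ∑ i ∈ I,
        algebraMap K F (aI i / aI istar) * (N.t i - algebraMap K F (aI i))⁻¹ +
          algebraMap K F (aI istar) * y))) = 0 := by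
    intro j hj v hv
    rw [← hVY, v.ord_mul hU.ne_zero (pow_ne_zero _ (Finset.prod_ne_zero_iff.mpr hq0)), hordu,
      hH2 j hj v hv, kl_ord_pow, kl_ord_prod v I _ hq0, Finset.sum_eq_single_of_mem j hj]
    · rw [v.ord_mul (hL j hj).t_isU.ne_zero (inv_ne_zero (hs0 j hj)), v.ord_inv,
        (hL j hj).ord_t_self v hv, (hL j hj).ord_s_self v hv]
      ring
    · intro i hi hij
      rw [v.ord_mul (hL i hi).t_isU.ne_zero (inv_ne_zero (hs0 i hi)), v.ord_inv,
        (hL i hi).ord_t_other j (Ne.symm hij) v hv, (hL i hi).ord_s_other j (Ne.symm hij) v hv]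
      norm_num
  exact kl_core N I istar hstar hU hu1 huP0 (fun v hv => by rw [hordu]; exact hH1 v hv)
    ha0 haA hai hYmem hY2 hY3 huV

end Fermat.Agent.S18Key
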