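import Mathlib
import Fermat.Agent.S18.KeyMain
import Fermat.Agent.S18.KeyJacobi

set_option autoImplicit false

/-!
# S18 / KEY LEMMA: prime-to-residue-characteristic torsion injects under reduction

`key_lemma : KeyLemmaStatement S g` for every reduction package `S : RedSetup K F k Fk`:
given Riemann's inequality in degree `g` on `F` and `g` non-special generic points on `Fk`
(`NSData S g`), a degree zero divisor `D` on `F` with `m • D` principal, `m` a unit of `A`, and
principal reduction `r_* D` is principal.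
-/

noncomputable section

open AlgebraicCurve

namespace Fermat.Agent.S18Key

variable {K F k Fk : Type*} [Field K] [Field F] [Algebra K F] [Field k] [Field Fk] [Algebra k Fk]

/-- **KEY LEMMA**. -/
theorem key_lemma (S : RedSetup K F k Fk) (g : ℕ) : KeyLemmaStatement S g := by
  intro hRI hN m hm0 hmA D hdeg hmD hred
  obtain ⟨N⟩ := hN
  obtain ⟨φ, P, hφ, hP, hE⟩ := exists_jacobi S g hRI N D hdeg hred
  obtain ⟨f₁, hf₁, hf₁d⟩ := hmD
  have hmain := kl_main N m hm0 hmA P hP (f₁ * φ ^ m) (mul_ne_zero hf₁ (pow_ne_zero _ hφ))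
    (fun v => by
      rw [v.ord_mul hf₁ (pow_ne_zero _ hφ), kl_ord_pow, ← hf₁d, ← hE v, Finsupp.smul_apply]
      simp only [nsmul_eq_mul]
      ring)
  refine ⟨φ⁻¹, inv_ne_zero hφ, fun v => ?_⟩
  rw [v.ord_inv]
  have h := hE v
  rw [Finset.sum_eq_zero (fun i _ => by rw [hmain i, sub_self])] at h
  omega

/-- the KEY LEMMA, unfolded. -/
theorem key_lemma' (S : RedSetup K F k Fk) (g : ℕ)
    (hRI : ∀ D : Divisor K F, Divisor.degree D = g →
      ∃ φ : F, φ ≠ 0 ∧ ∀ P : Place K F, 0 ≤ D P + P.ord φ)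
    (N : NSData S g) (m : ℕ) (hm0 : (m : K) ≠ 0) (hmA : ((m : K))⁻¹ ∈ S.A)
    (D : Divisor K F) (hdeg : Divisor.degree D = 0)
    (hmD : (m • D) ∈ Divisor.principal (K := K) (F := F))
    (hred : Finsupp.mapDomain S.r D ∈ Divisor.principal (K := k) (F := Fk)) :
    D ∈ Divisor.principal (K := K) (F := F) :=
  key_lemma S g hRI ⟨N⟩ m hm0 hmA D hdeg hmD hred

end Fermat.Agent.S18Key
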