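import Mathlib
import Fermat.Agent.S18.KeyFinal
import Fermat.Agent.S18.NSBuild

set_option autoImplicit false

/-!
# S18 / cluster B, piece (4), abstract part: the KEY LEMMA in "function form"

For a reduction package `S : RedSetup K F k Fk` over an algebraically closed constant field `K`,
with Riemann's inequality in degree `g` and `g` non-special generic points (`NSData S g`):

  a function `f ∈ Ov` with `ρ f = 1`, all of whose orders are divisible by `n`, `n` a unit of `A`,
  is an `n`-th power in `F`.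

This is the shape of `Fermat.Agent.GaussInt.KeyLemmaAt`; the instantiation only has to supply the
package `S` (Deuring construction), `hRI` (Riemann) and `NSData` (helper7's `nonempty_nsData`).
(helper85)
-/

noncomputable section

open AlgebraicCurve Fermat.Agent.RR

namespace Fermat.Agent.S18Key

variable {K F k Fk : Type*} [Field K] [Field F] [Algebra K F] [Field k] [Field Fk] [Algebra k Fk]

/-- the divisor `(1/n) div f`. -/
def divRoot (hF : IsRRField K F) (n : ℕ) (f : F) : Divisor K F :=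
  (divOf hF f).mapRange (fun a : ℤ => a / (n : ℤ)) (by simp)

theorem divRoot_apply (hF : IsRRField K F) (n : ℕ) (f : F) (P : Place K F) :
    divRoot hF n f P = P.ord f / (n : ℤ) := by
  rw [divRoot, Finsupp.mapRange_apply, divOf_apply]

theorem nsmul_divRoot (hF : IsRRField K F) (n : ℕ) (f : F)
    (hdiv : ∀ P : Place K F, (n : ℤ) ∣ P.ord f) : n • divRoot hF n f = divOf hF f := by
  ext P
  rw [Finsupp.smul_apply, divRoot_apply, divOf_apply, nsmul_eq_mul]
  exact Int.mul_ediv_cancel' (hdiv P)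

theorem degree_divRoot (hF : IsRRField K F) (n : ℕ) (hn : n ≠ 0) (f : F)
    (hdiv : ∀ P : Place K F, (n : ℤ) ∣ P.ord f) : Divisor.degree (divRoot hF n f) = 0 := by
  have h := congrArg Divisor.degree (nsmul_divRoot hF n f hdiv)
  rw [map_nsmul, degree_divOf, nsmul_eq_mul] at h
  rcases mul_eq_zero.mp h with h0 | h0
  · exact absurd (by exact_mod_cast h0) hn
  · exact h0

/-- a function without zeros and poles is a nonzero constant. -/
theorem exists_const_of_ord_eq_zero (hF : IsRRField K F) {u : F} (hu : u ≠ 0)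
    (h : ∀ P : Place K F, P.ord u = 0) : ∃ c : K, c ≠ 0 ∧ u = algebraMap K F c := by
  have hmem : u ∈ riemannRochSpace (0 : Divisor K F) := by
    rw [mem_riemannRochSpace_iff]
    intro v
    right
    rw [h v]
    simp
  obtain ⟨c, hc⟩ := (mem_riemannRochSpace_zero_iff hF u).mp hmem
  refine ⟨c, ?_, hc.symm⟩
  rintro rfl
  rw [map_zero] at hc
  exact hu hc.symm

/-- **KEY LEMMA, function form.** -/
theorem exists_pow_eq_of_key [IsAlgClosed K] (S : RedSetup K F k Fk) (g : ℕ)
    (hRI : ∀ D : Divisor K F, Divisor.degree D = g →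
      ∃ φ : F, φ ≠ 0 ∧ ∀ P : Place K F, 0 ≤ D P + P.ord φ)
    (N : NSData S g) (n : ℕ) (hn0 : (n : K) ≠ 0) (hnA : ((n : K))⁻¹ ∈ S.A)
    (f : F) (hfO : f ∈ S.Ov) (hρ : S.ρ ⟨f, hfO⟩ = 1)
    (hdiv : ∀ P : Place K F, (n : ℤ) ∣ P.ord f) :
    ∃ h : F, h ^ n = f := by
  classical
  have hn : n ≠ 0 := by
    rintro rfl
    exact hn0 (by simp)
  have hρne : S.ρ ⟨f, hfO⟩ ≠ 0 := by
    rw [hρ]
    exact one_ne_zero
  obtain ⟨hfinv, hf⟩ := inv_mem_of_rho_ne_zero S hfO hρne
  set D : Divisor K F := divRoot S.hF n f with hD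
  have hnD : n • D = divOf S.hF f := nsmul_divRoot S.hF n f hdiv
  have hdeg : Divisor.degree D = 0 := degree_divRoot S.hF n hn f hdiv
  have hprin : (n • D) ∈ Divisor.principal (K := K) (F := F) := by
    rw [hnD]
    exact ⟨f, hf, fun v => divOf_apply S.hF f v⟩
  -- the reduction of `D` is zero
  have hpush : Finsupp.mapDomain S.r (divOf S.hF f) = 0 := by
    ext Q
    rw [S.push f hfO hfinv hf Q, hρ, Q.ord_one]
    rfl
  have hred0 : Finsupp.mapDomain S.r D = 0 := by
    have h1 : n • Finsupp.mapDomain S.r D = 0 := by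
      rw [← Finsupp.mapDomain_smul, hnD, hpush]
    ext Q
    have h2 := congrArg (fun E : Place k Fk →₀ ℤ => E Q) h1
    simp only [Finsupp.smul_apply, Finsupp.coe_zero, Pi.zero_apply, nsmul_eq_mul] at h2
    rcases mul_eq_zero.mp h2 with h0 | h0
    · exact absurd (by exact_mod_cast h0) hn
    · simpa using h0
  have hred : Finsupp.mapDomain S.r D ∈ Divisor.principal (K := k) (F := Fk) := by
    rw [hred0]
    exact zero_mem _
  obtain ⟨h', hh', hDh'⟩ := key_lemma' S g hRI N n hn0 hnA D hdeg hprin hred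
  -- `f / h'^n` has trivial divisor
  have hpow : h' ^ n ≠ 0 := pow_ne_zero _ hh'
  have hu : f * (h' ^ n)⁻¹ ≠ 0 := mul_ne_zero hf (inv_ne_zero hpow)
  have hord : ∀ P : Place K F, P.ord (f * (h' ^ n)⁻¹) = 0 := by
    intro P
    rw [P.ord_mul hf (inv_ne_zero hpow), P.ord_inv, kl_ord_pow, ← hDh' P]
    have h3 := congrArg (fun E : Divisor K F => E P) hnD
    simp only [Finsupp.smul_apply, nsmul_eq_mul] at h3
    rw [divOf_apply] at h3
    rw [← h3]
    ring
  obtain ⟨c, hc, hcu⟩ := exists_const_of_ord_eq_zero S.hF hu hord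
  obtain ⟨d, hd⟩ := IsAlgClosed.exists_pow_nat_eq c (Nat.pos_of_ne_zero hn)
  refine ⟨algebraMap K F d * h', ?_⟩
  rw [mul_pow, ← map_pow, hd, ← hcu, mul_assoc, inv_mul_cancel₀ hpow, mul_one]

end Fermat.Agent.S18Key
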