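import Mathlib
import Fermat.Agent.S18.KeyApply
import Fermat.Agent.Lib.Deuring.Main
import Fermat.Agent.Lib.RR.Weil

set_option autoImplicit false

/-!
# S18 / cluster B, piece (4): glue of the KEY LEMMA with the Riemann-Roch library, Deuring's
reduction map and the `(NS)` package

* `riemann_of_isRRField` : Riemann's inequality in the form `hRI` used by the KEY LEMMA.
* `RedSetup.ofVal` : a `Deuring.ValSetup` + a reduction map of places with `push` is a `RedSetup`.
* `exists_pow_eq_of_reduction` : KEY LEMMA in function form for a `ValSetup` with a reduction map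
  and a base function (`BaseFn`, e.g. `j`).
* `exists_pow_eq_of_valSetup` : the same with the reduction map supplied by
  `Deuring.exists_reduction` (lattice property + genus equality).
(helper85)
-/

noncomputable section

open AlgebraicCurve Fermat.Agent.RR

namespace Fermat.Agent.S18Key

variable {K F k Fk : Type*} [Field K] [Field F] [Algebra K F] [Field k] [Field Fk] [Algebra k Fk]

/-- Riemann's inequality, in the form used by the KEY LEMMA: a divisor of degree `g ≥ genus`
is linearly equivalent to an effective one. -/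
theorem riemann_of_isRRField (hF : IsRRField K F) (g : ℕ) (hg : genusFF K F ≤ g) :
    ∀ D : Divisor K F, Divisor.degree D = g →
      ∃ φ : F, φ ≠ 0 ∧ ∀ P : Place K F, 0 ≤ D P + P.ord φ := by
  intro D hD
  obtain ⟨W, hW⟩ := riemann_roch hF
  have h1 := hW D
  have hpos : 0 < ell D := by
    have hg' : (genusFF K F : ℤ) ≤ (g : ℤ) := by exact_mod_cast hg
    have h2 : (0 : ℤ) ≤ (ell (W - D) : ℤ) := Int.natCast_nonneg _
    have h3 : (0 : ℤ) < (ell D : ℤ) := by
      rw [h1, hD]
      linarith
    exact_mod_cast h3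
  have hne : riemannRochSpace D ≠ ⊥ := by
    intro hbot
    rw [ell_def, hbot, finrank_bot] at hpos
    exact lt_irrefl _ hpos
  obtain ⟨φ, hφ, hφ0⟩ := Submodule.exists_mem_ne_zero_of_ne_bot hne
  refine ⟨φ, hφ0, fun P => ?_⟩
  rcases (mem_riemannRochSpace_iff.mp hφ) P with h0 | h0
  · exact absurd h0 hφ0
  · linarith

/-- A `Deuring.ValSetup` together with a reduction map of places satisfying `push` is a reduction
package in the sense of the KEY LEMMA. -/
def RedSetup.ofVal (S : Fermat.Agent.Deuring.ValSetup K F k Fk) (r : Place K F → Place k Fk)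
    (hpush : ∀ f : F, f ∈ S.Ov → f⁻¹ ∈ S.Ov → f ≠ 0 → ∀ Q : Place k Fk,
      Finsupp.mapDomain r (divOf S.hF f) Q = Q.ord (S.red f)) : RedSetup K F k Fk where
  A := S.A
  Ov := S.Ov
  res := S.res
  ρ := S.ρ
  r := r
  hF := S.hF
  mem_Ov_iff := S.mem_Ov_iff
  ρ_algebraMap := S.ρ_algebraMap
  ρ_eq_zero_iff := S.ρ_eq_zero_iff
  scale := S.scale
  push := fun f hf hfi hf0 Q => by
    rw [hpush f hf hfi hf0 Q, Fermat.Agent.Deuring.ValSetup.red, dif_pos hf]

/-- **KEY LEMMA, function form, for a `ValSetup` with a reduction map.** -/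
theorem exists_pow_eq_of_reduction [IsAlgClosed K] [Infinite k]
    (S : Fermat.Agent.Deuring.ValSetup K F k Fk) (r : Place K F → Place k Fk)
    (hpush : ∀ f : F, f ∈ S.Ov → f⁻¹ ∈ S.Ov → f ≠ 0 → ∀ Q : Place k Fk,
      Finsupp.mapDomain r (divOf S.hF f) Q = Q.ord (S.red f))
    (B : BaseFn (RedSetup.ofVal S r hpush)) (hg : genusFF K F ≤ genusFF k Fk)
    (n : ℕ) (hn0 : (n : K) ≠ 0) (hnA : ((n : K))⁻¹ ∈ S.A)
    (f : F) (hfO : f ∈ S.Ov) (hρ : S.ρ ⟨f, hfO⟩ = 1)
    (hdiv : ∀ P : Place K F, (n : ℤ) ∣ P.ord f) :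
    ∃ h : F, h ^ n = f := by
  obtain ⟨N⟩ := BaseFn.nonempty_nsData B S.hFk S.res_surj (genusFF K F) hg
  exact exists_pow_eq_of_key (RedSetup.ofVal S r hpush) (genusFF K F)
    (riemann_of_isRRField S.hF _ le_rfl) N n hn0 hnA f hfO hρ hdiv

/-- **KEY LEMMA, function form, from the lattice property and genus equality.**
The base function is allowed to depend on the reduction map produced by Deuring's construction
(of which it may use `push` and the preservation of degrees). -/
theorem exists_pow_eq_of_valSetup [IsAlgClosed K] [Infinite k]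
    (S : Fermat.Agent.Deuring.ValSetup K F k Fk) (hL : Fermat.Agent.Deuring.HasLattice S)
    (hg : genusFF K F = genusFF k Fk)
    (hB : ∀ (r : Place K F → Place k Fk)
      (hpush : ∀ f : F, f ∈ S.Ov → f⁻¹ ∈ S.Ov → f ≠ 0 → ∀ Q : Place k Fk,
        Finsupp.mapDomain r (divOf S.hF f) Q = Q.ord (S.red f)),
      (∀ B : Divisor K F, 2 * (genusFF K F : ℤ) ≤ Divisor.degree B →
        Fermat.Agent.Deuring.redSpace S (riemannRochSpace B) =
          riemannRochSpace (Finsupp.mapDomain r B)) →
      (∀ B : Divisor K F, Divisor.degree (Finsupp.mapDomain r B) = Divisor.degree B) →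
      Nonempty (BaseFn (RedSetup.ofVal S r hpush)))
    (n : ℕ) (hn0 : (n : K) ≠ 0) (hnA : ((n : K))⁻¹ ∈ S.A)
    (f : F) (hfO : f ∈ S.Ov) (hρ : S.ρ ⟨f, hfO⟩ = 1)
    (hdiv : ∀ P : Place K F, (n : ℤ) ∣ P.ord f) :
    ∃ h : F, h ^ n = f := by
  obtain ⟨r, hpush, hGR, hdeg⟩ := Fermat.Agent.Deuring.exists_reduction S hL hg
  obtain ⟨B⟩ := hB r hpush hGR hdeg
  exact exists_pow_eq_of_reduction S r hpush B hg.le n hn0 hnA f hfO hρ hdiv

end Fermat.Agent.S18Key
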