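import Mathlib
import Fermat.Agent.Lib.RR.Basic
import Fermat.Agent.Lib.GaussInt.Basic

set_option autoImplicit false

/-!
# S18 wiring: the abstract steps

Pure statements about two function fields `F / K`, `Fk / k` and a map of places, resp. about the
Gauss ring; they are instantiated in `S18/Wiring.lean`.
-/

noncomputable section

open AlgebraicCurve Fermat.Agent.RR

namespace Fermat.Agent.S18W

section Abstract

variable {K F k Fk : Type*} [Field K] [Field F] [Algebra K F] [Field k] [Field Fk] [Algebra k Fk]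

/-- a function without zeros and poles is a constant. -/
theorem exists_eq_algebraMap_of_ord_eq_zero (h : IsRRField K F) {v : F}
    (hv : ∀ Q : Place K F, Q.ord v = 0) : ∃ c : K, v = algebraMap K F c := by
  have hmem : v ∈ riemannRochSpace (0 : Divisor K F) := by
    rw [mem_riemannRochSpace_iff]
    intro Q
    right
    rw [hv Q]
    simp
  obtain ⟨c, hc⟩ := (mem_riemannRochSpace_zero_iff h v).mp hmem
  exact ⟨c, hc.symm⟩

/-- push-forward of the divisor of a quotient. -/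
theorem push_div (hF : IsRRField K F) (r₀ : Place K F → Place k Fk) {f₁ y₁ y₂ : F}
    {yb₁ yb₂ : Fk} (hf₁ : f₁ ≠ 0) (hy₂ : y₂ ≠ 0) (heq : f₁ * y₂ = y₁)
    (hyb₁ : yb₁ ≠ 0) (hyb₂ : yb₂ ≠ 0)
    (h₁ : ∀ Q : Place k Fk, Finsupp.mapDomain r₀ (divOf hF y₁) Q = Q.ord yb₁)
    (h₂ : ∀ Q : Place k Fk, Finsupp.mapDomain r₀ (divOf hF y₂) Q = Q.ord yb₂)
    (Q : Place k Fk) :
    Finsupp.mapDomain r₀ (divOf hF f₁) Q = Q.ord (yb₁ * yb₂⁻¹) := by
  have hdiv : divOf hF y₁ = divOf hF f₁ + divOf hF y₂ := by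
    rw [← heq, divOf_mul hF hf₁ hy₂]
  have h3 := h₁ Q
  rw [hdiv, Finsupp.mapDomain_add, Finsupp.add_apply, h₂ Q] at h3
  rw [Q.ord_mul hyb₁ (inv_ne_zero hyb₂), Q.ord_inv]
  omega

/-- comparison of the two reductions of `m D = div f₁`. -/
theorem exists_const_of_push (hFk : IsRRField k Fk) (r₀ : Place K F → Place k Fk)
    (hF : IsRRField K F) (D : Divisor K F) (m : ℕ) {f₁ : F}
    (hdiv : ∀ P : Place K F, (m • D) P = P.ord f₁) {fb ub : Fk} (hfb : fb ≠ 0) (hub : ub ≠ 0)
    (hpush : ∀ Q : Place k Fk, Finsupp.mapDomain r₀ (divOf hF f₁) Q = Q.ord fb)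
    (hubD : ∀ Q : Place k Fk, Finsupp.mapDomain r₀ D Q = Q.ord ub) :
    ∃ cb : k, cb ≠ 0 ∧ fb = algebraMap k Fk cb * ub ^ m := by
  have hD : divOf hF f₁ = m • D := by
    ext P
    rw [divOf_apply, hdiv P]
  have hordQ : ∀ Q : Place k Fk, Q.ord fb = (m : ℤ) * Q.ord ub := by
    intro Q
    rw [← hpush Q, ← hubD Q, hD]
    have := map_nsmul (Finsupp.mapDomain.addMonoidHom r₀) m D
    rw [Finsupp.mapDomain.addMonoidHom_apply, Finsupp.mapDomain.addMonoidHom_apply] at this
    rw [this, Finsupp.smul_apply, nsmul_eq_mul]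
  have hpow : ub ^ m ≠ 0 := pow_ne_zero m hub
  obtain ⟨cb, hcb⟩ := exists_eq_algebraMap_of_ord_eq_zero hFk (v := fb * (ub ^ m)⁻¹) (by
    intro Q
    rw [Q.ord_mul hfb (inv_ne_zero hpow), Q.ord_inv, ← zpow_natCast, Q.ord_zpow, hordQ Q]
    ring)
  refine ⟨cb, ?_, ?_⟩
  · rintro rfl
    rw [map_zero] at hcb
    exact mul_ne_zero hfb (inv_ne_zero hpow) hcb
  · rw [← hcb, inv_mul_cancel_right₀ hpow]

/-- the final divisor computation. -/
theorem ord_mul_of_pow_eq (D : Divisor K F) {m : ℕ} (hm0 : m ≠ 0) {f₁ g uF h : F} {a : K}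
    (ha : a ≠ 0) (hu : uF ≠ 0) (hg : g ≠ 0)
    (hdiv : ∀ P : Place K F, (m • D) P = P.ord f₁) (hfg : f₁ = algebraMap K F a * uF ^ m * g)
    (hpow : h ^ m = g) (P : Place K F) : D P = P.ord (h * uF) := by
  have hh : h ≠ 0 := by
    rintro rfl
    rw [zero_pow hm0] at hpow
    exact hg hpow.symm
  have haF : algebraMap K F a ≠ 0 := by simpa using ha
  have h1 := hdiv P
  rw [Finsupp.smul_apply, nsmul_eq_mul, hfg, ← hpow,
    P.ord_mul (mul_ne_zero haF (pow_ne_zero m hu)) (pow_ne_zero m hh),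
    P.ord_mul haF (pow_ne_zero m hu), Fermat.Agent.S24Res.ord_algebraMap, zero_add,
    ← zpow_natCast, P.ord_zpow, ← zpow_natCast, P.ord_zpow] at h1
  rw [P.ord_mul hh hu]
  have hm : (m : ℤ) ≠ 0 := by exact_mod_cast hm0
  have h2 : (m : ℤ) * D P = (m : ℤ) * (P.ord h + P.ord uF) := by rw [h1]; ring
  exact mul_left_cancel₀ hm h2

/-- divisibility of the divisor of `g`. -/
theorem dvd_ord_of_eq (D : Divisor K F) {m : ℕ} {f₁ g uF : F} {a : K}
    (ha : a ≠ 0) (hu : uF ≠ 0) (hg : g ≠ 0)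
    (hdiv : ∀ P : Place K F, (m • D) P = P.ord f₁) (hfg : f₁ = algebraMap K F a * uF ^ m * g)
    (P : Place K F) : (m : ℤ) ∣ P.ord g := by
  have haF : algebraMap K F a ≠ 0 := by simpa using ha
  have h1 := hdiv P
  rw [Finsupp.smul_apply, nsmul_eq_mul, hfg,
    P.ord_mul (mul_ne_zero haF (pow_ne_zero m hu)) hg,
    P.ord_mul haF (pow_ne_zero m hu), Fermat.Agent.S24Res.ord_algebraMap, zero_add,
    ← zpow_natCast, P.ord_zpow] at h1
  refine ⟨D P - P.ord uF, ?_⟩
  rw [mul_sub, h1]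
  ring

end Abstract

section Gauss

open Fermat.Agent.GaussInt ModularCurve

variable {K : Type*} [Field K] {A : ValuationSubring K}
  {F : IntermediateField K (LaurentSeries K)}

/-- normalising an element of the Gauss ring whose residue is `c̄ ū ^ m`. -/
theorem exists_normalised {f₁ u : LaurentSeries K} (hf₁ : f₁ ∈ gaussSub A F)
    (hu : u ∈ gaussSub A F) (hures : gaussResFun A F u ≠ 0) (a : A)
    (ha : IsLocalRing.residue A a ≠ 0) (m : ℕ)
    (hres : gaussResFun A F f₁ =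
      algebraMap (IsLocalRing.ResidueField A) (LaurentSeries (IsLocalRing.ResidueField A))
        (IsLocalRing.residue A a) * gaussResFun A F u ^ m) :
    ∃ g : LaurentSeries K, g ∈ gaussSub A F ∧ gaussResFun A F g = 1 ∧
      f₁ = algebraMap K (LaurentSeries K) (a : K) * u ^ m * g := by
  have haK : (a : K) ≠ 0 := by
    intro h0
    apply ha
    have : a = 0 := Subtype.ext h0
    rw [this, map_zero]
  have hca : algebraMap K (LaurentSeries K) (a : K) ∈ gaussSub A F :=
    algebraMap_mem_gaussSub_iff.mpr a.2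
  have hcares : gaussResFun A F (algebraMap K (LaurentSeries K) (a : K)) =
      algebraMap (IsLocalRing.ResidueField A) (LaurentSeries (IsLocalRing.ResidueField A))
        (IsLocalRing.residue A a) := gaussResFun_algebraMap a.2
  have hcares0 : gaussResFun A F (algebraMap K (LaurentSeries K) (a : K)) ≠ 0 := by
    rw [hcares]
    simpa using ha
  have hcaK : algebraMap K (LaurentSeries K) (a : K) ≠ 0 := by simpa using haK
  have hu0 : u ≠ 0 := by
    rintro rfl
    apply hures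
    exact map_zero (gaussRes A F)
  have hcai := inv_mem_gaussSub hca hcares0
  have hui := inv_mem_gaussSub hu hures
  have hcaires := gaussResFun_inv hca hcares0
  have huires := gaussResFun_inv hu hures
  refine ⟨f₁ * (algebraMap K (LaurentSeries K) (a : K))⁻¹ * u⁻¹ ^ m,
    mul_mem (mul_mem hf₁ hcai) (pow_mem hui m), ?_, ?_⟩
  · have h2 : gaussRes A F (⟨f₁, hf₁⟩ * ⟨_, hcai⟩ * ⟨_, hui⟩ ^ m) =
        gaussRes A F ⟨f₁, hf₁⟩ * gaussRes A F ⟨_, hcai⟩ * gaussRes A F ⟨_, hui⟩ ^ m := by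
      rw [map_mul, map_mul, map_pow]
    have h3 : gaussResFun A F (f₁ * (algebraMap K (LaurentSeries K) (a : K))⁻¹ * u⁻¹ ^ m) =
        gaussResFun A F f₁ * gaussResFun A F (algebraMap K (LaurentSeries K) (a : K))⁻¹ *
          gaussResFun A F u⁻¹ ^ m := h2
    rw [h3, hcaires, huires, hres, hcares]
    have hne : algebraMap (IsLocalRing.ResidueField A)
        (LaurentSeries (IsLocalRing.ResidueField A)) (IsLocalRing.residue A a) ≠ 0 := by
      simpa using ha
    rw [inv_pow, mul_right_comm, mul_inv_cancel_right₀ (pow_ne_zero m hures),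
      mul_inv_cancel₀ hne]
  · rw [inv_pow]
    have h4 : algebraMap K (LaurentSeries K) (a : K) * u ^ m *
        (f₁ * (algebraMap K (LaurentSeries K) (a : K))⁻¹ * (u ^ m)⁻¹) =
        f₁ * (algebraMap K (LaurentSeries K) (a : K) *
          (algebraMap K (LaurentSeries K) (a : K))⁻¹) * (u ^ m * (u ^ m)⁻¹) := by ring
    rw [h4, mul_inv_cancel₀ hcaK, mul_inv_cancel₀ (pow_ne_zero m hu0), mul_one, mul_one]

end Gauss

end Fermat.Agent.S18W
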