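import Mathlib
import Fermat.Prelude.Def_ModularCurve_ReductionModL
import Fermat.Agent.Lib.GaussInt.Interface
import Fermat.Agent.Lib.GaussInt.ModularInst
import Fermat.Agent.S18.WiringAbs

set_option autoImplicit false

/-!
# S18 from the KEY LEMMA in function form (`KeyLemmaAt N`)

`z = [D]` with `m z = 0`, i.e. `m D = div f`; scale `f` to a unit of the Gauss ring.  The GIVEN
reduction map `r₀` of the frozen statement satisfies `r₀_* (div f) = div (ρ f)` by its defining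
property, and the hypothesis gives `r₀_* D = div ū`.  So `ρ f = c̄ ū ^ m`; lift `ū`, `c̄` and put
`g = f / (c u ^ m)`: `ρ g = 1` and `m ∣ div g`.  `KeyLemmaAt` gives `g = h ^ m`, hence
`D = div (h u)`.  No uniqueness of `r₀` is used.

Inputs: helper5/helper66's Gauss ring ((R3): its residue field is `F_k = k(j̄_d : d ∣ N)`),
helper19's Riemann-Roch packages.
-/

noncomputable section

open ModularCurve AlgebraicCurve Fermat.Agent.GaussInt Fermat.Agent.RR

namespace Fermat.Agent.S18W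

set_option synthInstance.maxHeartbeats 400000

/-- the defining property of a place reduction, for units of the Gauss ring. -/
theorem push_gaussSub (N : ℕ) [NeZero N] {ℓ : ℕ} (hℓ : ℓ.Prime) (hℓN : ¬ ℓ ∣ N)
    (A : ValuationSubring (AlgebraicClosure ℚ)) (hA : A.LiesOverPrime ℓ)
    (hF : IsRRField (AlgebraicClosure ℚ) (modularFunctionFieldBar N))
    (r₀ : Place (AlgebraicClosure ℚ) (modularFunctionFieldBar N) →
      Place (IsLocalRing.ResidueField A) (modularFunctionFieldFullC (IsLocalRing.ResidueField A) N))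
    (hr₀ : IsPlaceReductionModL A N r₀)
    (f₁ : modularFunctionFieldBar N)
    (hmem : (f₁ : LaurentSeries (AlgebraicClosure ℚ)) ∈ gaussSub A (modularFunctionFieldBar N))
    (hres : gaussResFun A (modularFunctionFieldBar N)
      (f₁ : LaurentSeries (AlgebraicClosure ℚ)) ≠ 0) :
    ∃ fb : modularFunctionFieldFullC (IsLocalRing.ResidueField A) N,
      (fb : LaurentSeries (IsLocalRing.ResidueField A)) =
        gaussResFun A (modularFunctionFieldBar N) (f₁ : LaurentSeries (AlgebraicClosure ℚ)) ∧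
      fb ≠ 0 ∧
      ∀ Q, Finsupp.mapDomain r₀ (divOf hF f₁) Q = Q.ord fb := by
  have hR3 := Fermat.Agent.GaussVal.gaussResFun_mem_fullC_of_isAlgClosed A ℓ N hℓ hA hℓN
  obtain ⟨Y₁, Y₂, hpres⟩ := hmem
  have hresq := gaussResFun_eq hpres
  have hY₂ : red A Y₂ ≠ 0 := hpres.prim
  have hY₁ : red A Y₁ ≠ 0 := by
    intro h0
    apply hres
    rw [hresq, h0, zero_div]
  have hk₁ : red A Y₁ ∈ modularFunctionFieldFullC (IsLocalRing.ResidueField A) N := by
    have := hR3 _ (emb_mem_gaussSub hpres.mem₁)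
    rwa [gaussResFun_emb hpres.mem₁] at this
  have hk₂ : red A Y₂ ∈ modularFunctionFieldFullC (IsLocalRing.ResidueField A) N := by
    have := hR3 _ (emb_mem_gaussSub hpres.mem₂)
    rwa [gaussResFun_emb hpres.mem₂] at this
  obtain ⟨y₁, yb₁, hy₁, hyb₁, hpush₁⟩ : ∃ (y₁ : modularFunctionFieldBar N)
      (yb₁ : modularFunctionFieldFullC (IsLocalRing.ResidueField A) N),
      (y₁ : LaurentSeries (AlgebraicClosure ℚ)) = emb A Y₁ ∧
      (yb₁ : LaurentSeries (IsLocalRing.ResidueField A)) = red A Y₁ ∧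
      ∀ Q, Finsupp.mapDomain r₀ (divOf hF y₁) Q = Q.ord yb₁ :=
    ⟨⟨emb A Y₁, hpres.mem₁⟩, ⟨red A Y₁, hk₁⟩, rfl, rfl, fun Q =>
      hr₀.2 Y₁ hpres.mem₁ hk₁ hY₁ (divOf hF ⟨emb A Y₁, hpres.mem₁⟩)
        (fun P => divOf_apply hF _ P) Q⟩
  obtain ⟨y₂, yb₂, hy₂, hyb₂, hpush₂⟩ : ∃ (y₂ : modularFunctionFieldBar N)
      (yb₂ : modularFunctionFieldFullC (IsLocalRing.ResidueField A) N),
      (y₂ : LaurentSeries (AlgebraicClosure ℚ)) = emb A Y₂ ∧
      (yb₂ : LaurentSeries (IsLocalRing.ResidueField A)) = red A Y₂ ∧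
      ∀ Q, Finsupp.mapDomain r₀ (divOf hF y₂) Q = Q.ord yb₂ :=
    ⟨⟨emb A Y₂, hpres.mem₂⟩, ⟨red A Y₂, hk₂⟩, rfl, rfl, fun Q =>
      hr₀.2 Y₂ hpres.mem₂ hk₂ hY₂ (divOf hF ⟨emb A Y₂, hpres.mem₂⟩)
        (fun P => divOf_apply hF _ P) Q⟩
  have hyb₁0 : yb₁ ≠ 0 := by
    rintro rfl
    exact hY₁ hyb₁.symm
  have hyb₂0 : yb₂ ≠ 0 := by
    rintro rfl
    exact hY₂ hyb₂.symm
  have hy₂0 : y₂ ≠ 0 := by
    rintro rfl
    exact hpres.emb_ne_zero hy₂.symm
  have hf₁0 : f₁ ≠ 0 := by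
    rintro rfl
    apply hres
    exact map_zero (gaussRes A (modularFunctionFieldBar N))
  have heq : f₁ * y₂ = y₁ := by
    apply Subtype.ext
    show (f₁ : LaurentSeries (AlgebraicClosure ℚ)) * (y₂ : LaurentSeries (AlgebraicClosure ℚ)) =
      (y₁ : LaurentSeries (AlgebraicClosure ℚ))
    rw [hy₁, hy₂]
    exact hpres.eq
  refine ⟨yb₁ * yb₂⁻¹, ?_, mul_ne_zero hyb₁0 (inv_ne_zero hyb₂0), fun Q =>
    push_div hF r₀ hf₁0 hy₂0 heq hyb₁0 hyb₂0 hpush₁ hpush₂ Q⟩
  show (yb₁ : LaurentSeries (IsLocalRing.ResidueField A)) *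
    ((yb₂ : LaurentSeries (IsLocalRing.ResidueField A)))⁻¹ = _
  rw [hyb₁, hyb₂, hresq, div_eq_mul_inv]

/-- **S18 from the KEY LEMMA in function form.** -/
theorem s18_of_keyLemmaAt (N : ℕ) [NeZero N] (hKey : KeyLemmaAt N) {ℓ : ℕ}
    [Fact ℓ.Prime] (hℓN : ¬ ℓ ∣ N) (A : ValuationSubring (AlgebraicClosure ℚ))
    (hA : A.LiesOverPrime ℓ)
    (h : ModularCurve.ReductionInputsModL A N) (m : ℕ) (hm : ¬ ℓ ∣ m) (z : ModularCurve.JZero N)
    (hmz : m • z = 0) (hz : ModularCurve.reductionModL A N z = 0) :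
    z = 0 := by
  classical
  have hℓ : ℓ.Prime := Fact.out
  have hAC : IsAlgClosed (IsLocalRing.ResidueField A) :=
    Fermat.Agent.FrobTrace.isAlgClosed_residueField A
  have hF := Fermat.Agent.RRMod.isRRField_bar N
  have hFk := Fermat.Agent.RRMod.isRRField_fullC' (IsLocalRing.ResidueField A) N
  have hm0 : m ≠ 0 := by
    rintro rfl
    exact hm (dvd_zero ℓ)
  have hr₀ := isPlaceReductionModL_placeReductionModL h
  obtain ⟨D, rfl⟩ := Pic0.mk_surjective z
  -- `m D = div f`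
  have hmD : m • (D : Divisor (AlgebraicClosure ℚ) (modularFunctionFieldBar N)) ∈
      Divisor.principal (K := AlgebraicClosure ℚ) (F := modularFunctionFieldBar N) := by
    have h1 : Pic0.mk (m • D) = 0 := by
      rw [← hmz]
      rfl
    rw [Pic0.mk, QuotientAddGroup.eq_zero_iff, AddSubgroup.mem_addSubgroupOf] at h1
    exact h1
  obtain ⟨f, hf0, hfD⟩ := hmD
  -- `r₀_* D = div ū`
  rw [reductionModL_mk h D] at hz
  have hrD : Finsupp.mapDomain (placeReductionModL h)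
      (D : Divisor (AlgebraicClosure ℚ) (modularFunctionFieldBar N)) ∈
      Divisor.principal (K := IsLocalRing.ResidueField A)
        (F := modularFunctionFieldFullC (IsLocalRing.ResidueField A) N) := by
    rw [Pic0.mk, QuotientAddGroup.eq_zero_iff, AddSubgroup.mem_addSubgroupOf] at hz
    exact hz
  obtain ⟨ub, hub0, hubD⟩ := hrD
  generalize hD' : (D : Divisor (AlgebraicClosure ℚ) (modularFunctionFieldBar N)) = D'
    at hfD hubD
  -- scale `f` to a unit of the Gauss ring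
  obtain ⟨c, hc0, hmem, hres⟩ := valueGroupAt N ℓ hℓ A hA f hf0
  obtain ⟨f₁, hf₁c, hf₁eq⟩ : ∃ f₁ : modularFunctionFieldBar N,
      (f₁ : LaurentSeries (AlgebraicClosure ℚ)) =
        algebraMap (AlgebraicClosure ℚ) (LaurentSeries (AlgebraicClosure ℚ)) c *
          (f : LaurentSeries (AlgebraicClosure ℚ)) ∧
      f₁ = algebraMap (AlgebraicClosure ℚ) (modularFunctionFieldBar N) c * f :=
    ⟨algebraMap (AlgebraicClosure ℚ) (modularFunctionFieldBar N) c * f, rfl, rfl⟩
  rw [← hf₁c] at hmem hres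
  have hcF : algebraMap (AlgebraicClosure ℚ) (modularFunctionFieldBar N) c ≠ 0 := by
    simpa using hc0
  have hdiv₁ : ∀ P : Place (AlgebraicClosure ℚ) (modularFunctionFieldBar N),
      (m • D') P = P.ord f₁ := by
    intro P
    rw [hfD P, hf₁eq, P.ord_mul hcF hf0, Fermat.Agent.S24Res.ord_algebraMap, zero_add]
  obtain ⟨fb, hfbc, hfb0, hpush⟩ := push_gaussSub N hℓ hℓN A hA hF _ hr₀ f₁ hmem hres
  obtain ⟨cb, hcb0, hfbeq⟩ := exists_const_of_push hFk _ hF D' m hdiv₁ hfb0 hub0 hpush hubD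
  -- lift `ū` and `c̄`
  obtain ⟨u, hu, hures⟩ := Fermat.Agent.GaussVal.exists_gaussResFun_eq_of_mem A N
    (ub : LaurentSeries (IsLocalRing.ResidueField A)) ub.2
  obtain ⟨a, ha⟩ := IsLocalRing.residue_surjective cb
  have hures0 : gaussResFun A (modularFunctionFieldBar N) u ≠ 0 := by
    rw [hures]
    exact fun h0 => hub0 (Subtype.ext h0)
  have hres₁ : gaussResFun A (modularFunctionFieldBar N)
      (f₁ : LaurentSeries (AlgebraicClosure ℚ)) =
      algebraMap (IsLocalRing.ResidueField A) (LaurentSeries (IsLocalRing.ResidueField A))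
        (IsLocalRing.residue A a) * gaussResFun A (modularFunctionFieldBar N) u ^ m := by
    rw [← hfbc, hfbeq, hures, ha]
    rfl
  obtain ⟨g, hg, hgres, hfg⟩ :=
    exists_normalised hmem hu hures0 a (by rw [ha]; exact hcb0) m hres₁
  obtain ⟨gF, hgF⟩ : ∃ gF : modularFunctionFieldBar N,
      (gF : LaurentSeries (AlgebraicClosure ℚ)) = g := ⟨⟨g, mem_of_mem_gaussSub hg⟩, rfl⟩
  obtain ⟨uF, huF⟩ : ∃ uF : modularFunctionFieldBar N,
      (uF : LaurentSeries (AlgebraicClosure ℚ)) = u := ⟨⟨u, mem_of_mem_gaussSub hu⟩, rfl⟩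
  have hfgF : f₁ = algebraMap (AlgebraicClosure ℚ) (modularFunctionFieldBar N) (a : _) *
      uF ^ m * gF := by
    apply Subtype.ext
    show (f₁ : LaurentSeries (AlgebraicClosure ℚ)) =
      algebraMap (AlgebraicClosure ℚ) (LaurentSeries (AlgebraicClosure ℚ)) (a : _) *
        (uF : LaurentSeries (AlgebraicClosure ℚ)) ^ m * (gF : LaurentSeries (AlgebraicClosure ℚ))
    rw [huF, hgF]
    exact hfg
  have huF0 : uF ≠ 0 := by
    rintro rfl
    apply hures0
    rw [← huF]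
    exact map_zero (gaussRes A (modularFunctionFieldBar N))
  have hgF0 : gF ≠ 0 := by
    rintro rfl
    have h1 : gaussResFun A (modularFunctionFieldBar N) g = 0 := by
      rw [← hgF]
      exact map_zero (gaussRes A (modularFunctionFieldBar N))
    rw [hgres] at h1
    exact one_ne_zero h1
  have haK : ((a : A) : AlgebraicClosure ℚ) ≠ 0 := by
    intro h0
    apply hcb0
    have : a = 0 := Subtype.ext h0
    rw [← ha, this, map_zero]
  have hdvd : ∀ P : Place (AlgebraicClosure ℚ) (modularFunctionFieldBar N),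
      (m : ℤ) ∣ P.ord gF := fun P => dvd_ord_of_eq D' haK huF0 hgF0 hdiv₁ hfgF P
  have hnot : ¬ ℓ ∣ N * m := by
    intro hdvd'
    rcases (Nat.Prime.dvd_mul hℓ).mp hdvd' with h1 | h1
    · exact hℓN h1
    · exact hm h1
  obtain ⟨hh, hhpow⟩ := hKey m ℓ hℓ hnot A hA gF hgF0 hdvd (by rw [hgF]; exact hg)
    (by rw [hgF]; exact hgres)
  have hfin := fun P => ord_mul_of_pow_eq D' hm0 haK huF0 hgF0 hdiv₁ hfgF hhpow P
  have hh0 : hh ≠ 0 := by
    rintro rfl
    rw [zero_pow hm0] at hhpow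
    exact hgF0 hhpow.symm
  rw [Pic0.mk, QuotientAddGroup.eq_zero_iff, AddSubgroup.mem_addSubgroupOf, hD']
  exact ⟨hh * uF, mul_ne_zero hh0 huF0, hfin⟩

end Fermat.Agent.S18W
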