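import Mathlib

/-!
# S18 core, algebraic heart (helper7)

Pure power-series algebra over a valuation ring `A`.  This is the "Hensel / Smith normal form"
step that replaces Zariski connectedness in the proof that prime-to-`ℓ` torsion injects under
reduction.

Dictionary (function-field side, see the S18 blueprint):
* `ι` indexes auxiliary points `P_i` with pairwise distinct reductions; `t_i` is a good parameter;
* `M  = L(E - D) ∩ O_v`,  `P i y`  = Taylor expansion of `t_i * y` at `P_i`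
  (so `constantCoeff (P i y)` is the polar coefficient of `y` at `P_i`);
* `M' = L(mE) ∩ O_v`,   `P' i w` = Taylor expansion of `t_i ^ m * w` at `P_i`;
* `pw y = y ^ m / Y` where `div Y = m D`, `Y ≡ 1`; `G i` = expansion of `Y⁻¹` at `P_i`;
* `𝒴` = elements of `M` with reduction `1`.
-/

namespace Fermat.Agent.S18Core

open PowerSeries IsLocalRing

variable {A : Type*} [CommRing A] [IsDomain A] [ValuationRing A]

/-- In a valuation ring, a finite nonempty family has a member dividing all the others. -/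
theorem exists_dvd_all {ι : Type*} [Finite ι] [Nonempty ι] (v : ι → A) :
    ∃ i₀, ∀ i, v i₀ ∣ v i := by
  classical
  haveI := Fintype.ofFinite ι
  suffices h : ∀ s : Finset ι, s.Nonempty → ∃ i₀ ∈ s, ∀ i ∈ s, v i₀ ∣ v i by
    obtain ⟨i₀, -, h⟩ := h Finset.univ Finset.univ_nonempty
    exact ⟨i₀, fun i => h i (Finset.mem_univ i)⟩
  intro s hs
  induction hs using Finset.Nonempty.cons_induction with
  | singleton a => exact ⟨a, Finset.mem_singleton_self a, fun i hi => by
      rw [Finset.mem_singleton] at hi; subst hi; exact dvd_rfl⟩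
  | cons a s ha hs ih =>
    obtain ⟨i₀, hi₀, h⟩ := ih
    rcases ValuationRing.dvd_total (v a) (v i₀) with h1 | h1
    · refine ⟨a, Finset.mem_cons_self a s, fun i hi => ?_⟩
      rcases Finset.mem_cons.mp hi with rfl | hi
      · exact dvd_rfl
      · exact h1.trans (h i hi)
    · refine ⟨i₀, Finset.mem_cons.mpr (Or.inr hi₀), fun i hi => ?_⟩
      rcases Finset.mem_cons.mp hi with rfl | hi
      · exact h1
      · exact h i hi

/-- Coefficients below `m` of `(C a + X * b) ^ m * G`:
they are `a` times something which is `≡ m * b(0)^(m-1) * G(0)` (for `j = m - 1`) resp. `≡ 0`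
(for `j < m - 1`) modulo `a`. -/
theorem coeff_pow_mul (a : A) (b G : PowerSeries A) (m : ℕ) (hm : 1 ≤ m) (j : ℕ) (hj : j < m) :
    ∃ e : A, coeff j ((C a + X * b) ^ m * G) =
      a * ((if j + 1 = m then (m : A) * constantCoeff b ^ (m - 1) * constantCoeff G else 0)
        + a * e) := by
  obtain ⟨k, hk⟩ := Polynomial.powAddExpansion (X * b) (C a) m
  have h1 : (C a + X * b) ^ m * G =
      X ^ m * (b ^ m * G) + C a * (X ^ (m - 1) * ((m : PowerSeries A) * b ^ (m - 1) * G))
        + C a * (C a * (k * G)) := by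
    rw [add_comm (C a) (X * b), hk, mul_pow, mul_pow]
    ring
  refine ⟨coeff j (k * G), ?_⟩
  rw [h1, map_add, map_add, coeff_C_mul, coeff_C_mul, coeff_C_mul, coeff_X_pow_mul',
    coeff_X_pow_mul', if_neg (by omega), zero_add, mul_add]
  congr 1
  by_cases hjm : j + 1 = m
  · have hle : m - 1 ≤ j := by omega
    have hsub : j - (m - 1) = 0 := by omega
    rw [if_pos hle, if_pos hjm, hsub, coeff_zero_eq_constantCoeff_apply, map_mul, map_mul,
      map_pow, map_natCast]
  · have hle : ¬ m - 1 ≤ j := by omega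
    rw [if_neg hle, if_neg hjm]

/-- **Algebraic core of S18.**  The configuration described in the module docstring is
contradictory: a minimal admissible element `y₀` can always be improved. -/
theorem core_contradiction
    {ι : Type*} [Finite ι]
    {M M' : Type*} [AddCommGroup M] [Module A M] [AddCommGroup M'] [Module A M']
    (m : ℕ) (hm1 : 1 ≤ m) (hm : IsUnit (m : A))
    (P : ι → M →ₗ[A] PowerSeries A) (P' : ι → M' →ₗ[A] PowerSeries A)
    (one' : M') (hone : ∀ i, P' i one' = X ^ m)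
    (pw : M → M') (G : ι → PowerSeries A)
    (hG : ∀ i, constantCoeff (G i) - 1 ∈ maximalIdeal A)
    (𝒴 : Set M)
    (hpw : ∀ y ∈ 𝒴, ∀ i, P' i (pw y) = (P i y) ^ m * G i)
    (hY1 : ∀ y ∈ 𝒴, ∀ i, coeff 1 (P i y) - 1 ∈ maximalIdeal A)
    (hYsub : ∀ y ∈ 𝒴, ∀ Θ : M, ∀ c ∈ maximalIdeal A, y - c • Θ ∈ 𝒴)
    (hH3 : ∀ w : M', ∀ c : A, (∀ i, ∀ j, j < m → c ∣ coeff j (P' i w)) →
      ∃ κ : A, ∃ θ : M', w = κ • one' + c • θ)
    (hH4 : ∀ θ : M', (∀ i, ∀ j, j + 1 < m → coeff j (P' i θ) ∈ maximalIdeal A) →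
      ∃ Θ : M, ∀ i, constantCoeff (P i Θ) - coeff (m - 1) (P' i θ) ∈ maximalIdeal A)
    (y₀ : M) (hy₀ : y₀ ∈ 𝒴)
    (hsmall : ∀ i, constantCoeff (P i y₀) ∈ maximalIdeal A)
    (hne : ∃ i, constantCoeff (P i y₀) ≠ 0)
    (hmin : ∀ y ∈ 𝒴, ∃ i, ∀ i', constantCoeff (P i y) ∣ constantCoeff (P i' y₀)) :
    False := by
  classical
  obtain ⟨i₁, hi₁⟩ := hne
  haveI : Nonempty ι := ⟨i₁⟩
  -- the largest polar coefficient
  obtain ⟨i₀, hi₀⟩ := exists_dvd_all (fun i => constantCoeff (P i y₀))
  set c : A := constantCoeff (P i₀ y₀) with hc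
  have hc0 : c ≠ 0 := fun h => hi₁ (by
    obtain ⟨x, hx⟩ := hi₀ i₁
    simpa [h] using hx)
  have hcm : c ∈ maximalIdeal A := hsmall i₀
  choose a ha using hi₀
  -- ha : ∀ i, constantCoeff (P i y₀) = c * a i
  -- expansions
  have hexp : ∀ i, P i y₀ = C (c * a i) + X * (mk fun p => coeff (p + 1) (P i y₀)) := by
    intro i
    have := eq_X_mul_shift_add_const (P i y₀)
    rw [ha i, add_comm] at this
    exact this
  have hb0 : ∀ i, constantCoeff (mk fun p => coeff (p + 1) (P i y₀)) = coeff 1 (P i y₀) := by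
    intro i
    rw [← coeff_zero_eq_constantCoeff_apply, coeff_mk]
  -- coefficients of pw y₀
  have hcoef : ∀ i j, j < m → ∃ e : A, coeff j (P' i (pw y₀)) =
      c * ((if j + 1 = m then a i * ((m : A) * coeff 1 (P i y₀) ^ (m - 1) * constantCoeff (G i))
        else 0) + c * e) := by
    intro i j hj
    obtain ⟨e, he⟩ := coeff_pow_mul (c * a i) (mk fun p => coeff (p + 1) (P i y₀)) (G i) m hm1 j hj
    rw [← hexp i, hb0 i] at he
    rw [hpw y₀ hy₀ i, he]
    refine ⟨a i * a i * e, ?_⟩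
    split_ifs <;> ring
  -- (H3)
  obtain ⟨κ, θ, hθ⟩ := hH3 (pw y₀) c (fun i j hj => by
    obtain ⟨e, he⟩ := hcoef i j hj
    exact ⟨_, he⟩)
  have hθcoef : ∀ i j, j < m → ∃ e : A, coeff j (P' i θ) =
      (if j + 1 = m then a i * ((m : A) * coeff 1 (P i y₀) ^ (m - 1) * constantCoeff (G i))
        else 0) + c * e := by
    intro i j hj
    obtain ⟨e, he⟩ := hcoef i j hj
    refine ⟨e, ?_⟩
    have h2 : coeff j (P' i (pw y₀)) = c * coeff j (P' i θ) := by
      rw [hθ, map_add, map_smul, map_smul, hone, map_add, coeff_smul, coeff_smul, coeff_X_pow,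
        if_neg (by omega), smul_zero, zero_add, smul_eq_mul]
    rw [h2] at he
    exact mul_left_cancel₀ hc0 he
  -- (H4)
  obtain ⟨Θ, hΘ⟩ := hH4 θ (fun i j hj => by
    obtain ⟨e, he⟩ := hθcoef i j (by omega)
    rw [he, if_neg (by omega), zero_add]
    exact Ideal.mul_mem_right _ _ hcm)
  -- the improved element
  obtain ⟨u, hu⟩ := hm
  set y' : M := y₀ - (c * (↑u⁻¹ : A)) • Θ with hy'
  have hy'mem : y' ∈ 𝒴 := hYsub y₀ hy₀ Θ _ (Ideal.mul_mem_right _ _ hcm)
  have hunit1 : ∀ x : A, x - 1 ∈ maximalIdeal A → ∀ n : ℕ, x ^ n - 1 ∈ maximalIdeal A := by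
    intro x hx n
    induction n with
    | zero => simp
    | succ n ih =>
      have : x ^ (n + 1) - 1 = x ^ n * (x - 1) + (x ^ n - 1) := by ring
      rw [this]
      exact Ideal.add_mem _ (Ideal.mul_mem_left _ _ hx) ih
  have hy'coef : ∀ i, ∃ μ ∈ maximalIdeal A, constantCoeff (P i y') = c * μ := by
    intro i
    obtain ⟨e, he⟩ := hθcoef i (m - 1) (by omega)
    rw [if_pos (by omega)] at he
    have h1 := hΘ i
    have hb := hunit1 _ (hY1 y₀ hy₀ i) (m - 1)
    have hg := hG i
    refine ⟨(↑u⁻¹ : A) * ((u : A) * a i - constantCoeff (P i Θ)), ?_, ?_⟩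
    · apply Ideal.mul_mem_left
      have hkey : (u : A) * a i - constantCoeff (P i Θ) =
          - (constantCoeff (P i Θ) - coeff (m - 1) (P' i θ))
          - a i * (u : A) * (coeff 1 (P i y₀) ^ (m - 1) - 1) * constantCoeff (G i)
          - a i * (u : A) * (constantCoeff (G i) - 1) - c * e := by
        rw [he, ← hu]; ring
      rw [hkey]
      refine Ideal.sub_mem _ (Ideal.sub_mem _ (Ideal.sub_mem _ (neg_mem h1) ?_) ?_) ?_
      · exact Ideal.mul_mem_right _ _ (Ideal.mul_mem_left _ _ hb)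
      · exact Ideal.mul_mem_left _ _ hg
      · exact Ideal.mul_mem_right _ _ hcm
    · have h3 : constantCoeff ((c * (↑u⁻¹ : A)) • P i Θ) =
          c * (↑u⁻¹ : A) * constantCoeff (P i Θ) := by
        rw [← coeff_zero_eq_constantCoeff_apply, coeff_smul, coeff_zero_eq_constantCoeff_apply,
          smul_eq_mul]
      have h4 : (↑u⁻¹ : A) * (u : A) = 1 := by simp
      rw [hy', map_sub, map_smul, map_sub, ha i, h3]
      linear_combination (-(c * a i)) * h4
  -- contradiction with minimality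
  obtain ⟨i, hi⟩ := hmin y' hy'mem
  obtain ⟨μ, hμ, hμc⟩ := hy'coef i
  obtain ⟨x, hx⟩ := hi i₀
  rw [hμc, ← hc] at hx
  have h5 : μ * x = 1 := by
    have : c * (μ * x) = c * 1 := by rw [mul_one]; rw [mul_assoc] at hx; exact hx.symm
    exact mul_left_cancel₀ hc0 this
  have h6 : IsUnit μ := IsUnit.of_mul_eq_one x h5
  exact (IsLocalRing.mem_maximalIdeal μ).mp hμ h6

end Fermat.Agent.S18Core
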